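/-
MAZUR project, node [MZ-J], cell [J-QUOT] by the ANALYTIC route, file `MZ/J/An/Alg.lean`
(helper7, prefix `mzj_al_`).  Mathlib only.

(S) THE ALGEBRAICITY STEP OF THE SURJECTIVITY DESCENT.  `F` algebraically closed, `ι : F →+* K`.

* `mzj_al_mem_range_of_root` : a root in `K` of a nonzero polynomial over `F` is in `ι(F)`;
* `mzj_al_velu_mem_range` (S1) : if `x + ∑_{k ∈ s} (ι t_k / (x - ι x_k) + ι u_k / (x - ι x_k)²) = ι x'`
  with `x ≠ ι x_k`, then `x ∈ ι(F)`  (monic polynomial of degree `2 |s| + 1`);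
* `mzj_al_quadratic_mem_range` (S2) : a root of `Y² + ι b Y + ι c` is in `ι(F)`;
* `mzj_al_point_descend` (S3) : a `K`-point of `W'⁄K` whose `x`-coordinate is in `f(F)` is the image
  of an `F`-point under `Point.map f`.
-/
import Mathlib

set_option autoImplicit false

noncomputable section

namespace Fermat.Agent.MZ

open Polynomial

section roots

variable {F K : Type*} [Field F] [IsAlgClosed F] [Field K] (ι : F →+* K)

/-- a root in `K` of a nonzero polynomial with coefficients in the algebraically closed `F` lies in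
the image of `F` -/
theorem mzj_al_mem_range_of_root {d : F[X]} (hd : d ≠ 0) {w : K}
    (hw : (d.map ι).eval w = 0) : ∃ c : F, ι c = w :=
  (IsAlgClosed.splits d).mem_range_of_isRoot hd (i := ι) (x := w) hw

/-- (S2) a root of a monic quadratic over `ι(F)` is in `ι(F)` -/
theorem mzj_al_quadratic_mem_range (b c : F) {y : K} (hy : y ^ 2 + ι b * y + ι c = 0) :
    ∃ y₀ : F, ι y₀ = y := by
  have hd : (X ^ 2 + C b * X + C c : F[X]) ≠ 0 := by
    intro h
    have := congrArg (fun q : F[X] => q.coeff 2) h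
    simp at this
  refine mzj_al_mem_range_of_root ι hd ?_
  simp only [Polynomial.map_add, Polynomial.map_mul, Polynomial.map_pow, map_X, map_C, eval_add,
    eval_mul, eval_pow, eval_X, eval_C]
  exact hy

variable {σ : Type*} [DecidableEq σ]

/-- the polynomial of (S1) -/
def mzj_al_pol (s : Finset σ) (xs ts us : σ → F) (x' : F) : F[X] :=
  (X - C x') * ∏ k ∈ s, (X - C (xs k)) ^ 2
    + ∑ k ∈ s, (C (ts k) * (X - C (xs k)) + C (us k)) * ∏ j ∈ s.erase k, (X - C (xs j)) ^ 2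

omit [IsAlgClosed F] in
theorem mzj_al_pol_monic (s : Finset σ) (xs ts us : σ → F) (x' : F) :
    (mzj_al_pol s xs ts us x').Monic := by
  unfold mzj_al_pol
  have hD : ∀ t : Finset σ, (∏ k ∈ t, (X - C (xs k)) ^ 2 : F[X]).Monic := fun t =>
    monic_prod_of_monic _ _ fun k _ => (monic_X_sub_C _).pow 2
  have hDdeg : ∀ t : Finset σ, (∏ k ∈ t, (X - C (xs k)) ^ 2 : F[X]).natDegree = 2 * t.card := by
    intro t
    rw [natDegree_prod_of_monic _ _ fun k _ => (monic_X_sub_C _).pow 2]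
    simp only [(monic_X_sub_C _).natDegree_pow, natDegree_X_sub_C, mul_one, Finset.sum_const,
      smul_eq_mul]
    ring
  have hA : ((X - C x') * ∏ k ∈ s, (X - C (xs k)) ^ 2 : F[X]).Monic :=
    (monic_X_sub_C _).mul (hD s)
  have hAdeg : ((X - C x') * ∏ k ∈ s, (X - C (xs k)) ^ 2 : F[X]).natDegree = 1 + 2 * s.card := by
    rw [(monic_X_sub_C _).natDegree_mul (hD s), natDegree_X_sub_C, hDdeg]
  refine hA.add_of_left ?_
  by_cases hs : s = ∅
  · subst hs
    simp
  have hcard : 0 < s.card := Finset.card_pos.2 (Finset.nonempty_iff_ne_empty.2 hs)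
  apply degree_lt_degree
  rw [hAdeg]
  refine lt_of_le_of_lt (natDegree_sum_le_of_forall_le s _ (n := 2 * s.card - 1) ?_) (by omega)
  intro k hk
  refine le_trans natDegree_mul_le ?_
  rw [hDdeg, Finset.card_erase_of_mem hk]
  have h1 : (C (ts k) * (X - C (xs k)) + C (us k) : F[X]).natDegree ≤ 1 := by
    refine le_trans (natDegree_add_le _ _) (max_le ?_ ?_)
    · refine le_trans natDegree_mul_le ?_
      rw [natDegree_C, natDegree_X_sub_C]
    · rw [natDegree_C]
      exact Nat.zero_le _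
  omega

omit [IsAlgClosed F] in
theorem mzj_al_pol_eval (s : Finset σ) (xs ts us : σ → F) (x' : F) (x : K)
    (hne : ∀ k ∈ s, x ≠ ι (xs k))
    (h : x + ∑ k ∈ s, (ι (ts k) / (x - ι (xs k)) + ι (us k) / (x - ι (xs k)) ^ 2) = ι x') :
    ((mzj_al_pol s xs ts us x').map ι).eval x = 0 := by
  unfold mzj_al_pol
  simp only [Polynomial.map_add, Polynomial.map_mul, Polynomial.map_sub, Polynomial.map_pow, map_X,
    map_C, Polynomial.map_prod, Polynomial.map_sum, eval_add, eval_mul, eval_sub, eval_pow, eval_X,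
    eval_C, eval_prod, eval_finsetSum]
  have hterm : ∀ k ∈ s, (ι (ts k) * (x - ι (xs k)) + ι (us k)) * ∏ j ∈ s.erase k, (x - ι (xs j)) ^ 2
      = (ι (ts k) / (x - ι (xs k)) + ι (us k) / (x - ι (xs k)) ^ 2)
          * ∏ j ∈ s, (x - ι (xs j)) ^ 2 := by
    intro k hk
    have hd : x - ι (xs k) ≠ 0 := sub_ne_zero.2 (hne k hk)
    rw [← Finset.mul_prod_erase s (fun j => (x - ι (xs j)) ^ 2) hk]
    field_simp
  rw [Finset.sum_congr rfl hterm, ← Finset.sum_mul, ← add_mul, ← h]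
  ring

/-- **(S1)** the abscissa of a preimage under Velu's `X` is algebraic, hence in `ι(F)` -/
theorem mzj_al_velu_mem_range (s : Finset σ) (xs ts us : σ → F) (x' : F) (x : K)
    (hne : ∀ k ∈ s, x ≠ ι (xs k))
    (h : x + ∑ k ∈ s, (ι (ts k) / (x - ι (xs k)) + ι (us k) / (x - ι (xs k)) ^ 2) = ι x') :
    ∃ x₀ : F, ι x₀ = x :=
  mzj_al_mem_range_of_root ι (mzj_al_pol_monic s xs ts us x').ne_zero
    (mzj_al_pol_eval ι s xs ts us x' x hne h)

end roots

section points

open WeierstrassCurve WeierstrassCurve.Affine WeierstrassCurve.Affine.Point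

variable {R : Type*} [CommRing R] (W' : WeierstrassCurve R)
  {F : Type*} [Field F] [DecidableEq F] [IsAlgClosed F] {K : Type*} [Field K] [DecidableEq K]
  [Algebra R F] [Algebra R K]

/-- **(S3)** a `K`-point with abscissa in `f(F)` comes from an `F`-point -/
theorem mzj_al_point_descend (f : F →ₐ[R] K) {x y : K} (h : (W'⁄K).Nonsingular x y)
    (hx : ∃ x₀ : F, f x₀ = x) :
    ∃ P₀ : (W'⁄F).Point, Point.map f P₀ = Point.some x y h := by
  obtain ⟨x₀, rfl⟩ := hx
  have heq := (equation_iff _ _).1 h.1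
  have ha₁ : (W'⁄K).a₁ = f (W'⁄F).a₁ := by simp
  have ha₂ : (W'⁄K).a₂ = f (W'⁄F).a₂ := by simp
  have ha₃ : (W'⁄K).a₃ = f (W'⁄F).a₃ := by simp
  have ha₄ : (W'⁄K).a₄ = f (W'⁄F).a₄ := by simp
  have ha₆ : (W'⁄K).a₆ = f (W'⁄F).a₆ := by simp
  obtain ⟨y₀, rfl⟩ := mzj_al_quadratic_mem_range (f : F →+* K)
    ((W'⁄F).a₁ * x₀ + (W'⁄F).a₃)
    (-(x₀ ^ 3 + (W'⁄F).a₂ * x₀ ^ 2 + (W'⁄F).a₄ * x₀ + (W'⁄F).a₆)) (y := y) (by
      rw [ha₁, ha₂, ha₃, ha₄, ha₆] at heq
      simp only [RingHom.coe_coe, map_add, map_mul, map_neg, map_pow]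
      linear_combination heq)
  have h0 : (W'⁄F).Nonsingular x₀ y₀ := (WeierstrassCurve.Affine.baseChange_nonsingular (W := W') (f := f) f.injective x₀ y₀).1 h
  exact ⟨Point.some x₀ y₀ h0, rfl⟩

end points

end Fermat.Agent.MZ
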