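/-
MAZUR project, node [MZ-J], cell [J-QUOT] (analytic route), file `MZ/J/An/AlgPre.lean`
(helper2, prefix `mzj_pr_`).  Mathlib only.

(S) SURJECTIVITY OF VELU'S ISOGENY ON THE POINTS OVER AN ALGEBRAICALLY CLOSED SUBFIELD
(coordinate form, to be combined with surjectivity over the big field).

* `mzj_pr_mem_range`     : `K` algebraically closed, `ι : K →+* L`; if
                           `x + ∑_{ξ ∈ S} (t ξ/(x - ξ) + u ξ/(x - ξ)²) = X'` with `S, t, u, X'` over `K`
                           and `x ∈ L` different from all `ι ξ`, then `x ∈ ι(K)`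
                           (root of a MONIC polynomial of degree `2|S| + 1`);
* `mzj_pr_mem_range_quadratic` : roots of monic quadratics;
* `mzj_pr_exists_coords` : a nonsingular point `(x, y)` of `W.map ι` over `L` with Vélu abscissa in
                           `ι(K)` is `(ι cx, ι cy)` for a nonsingular point `(cx, cy)` of `W`.
-/
import Mathlib

set_option autoImplicit false

noncomputable section

namespace Fermat.Agent.MZ

open Polynomial

/-- **algebraicity of the preimages under Vélu's `X`**: if `K` is algebraically closed and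
`x + ∑_{ξ ∈ S} (t ξ/(x - ξ) + u ξ/(x - ξ)²) = X'` with all the data except `x` in `ι(K)`,
then `x ∈ ι(K)` (it is a root of a monic polynomial of degree `2|S| + 1` over `K`). -/
theorem mzj_pr_mem_range {K L : Type*} [Field K] [IsAlgClosed K] [Field L] [DecidableEq K]
    (ι : K →+* L) (S : Finset K) (t u : K → K) (X' : K) (x : L) (hx : ∀ ξ ∈ S, x ≠ ι ξ)
    (h : x + ∑ ξ ∈ S, (ι (t ξ) / (x - ι ξ) + ι (u ξ) / (x - ι ξ) ^ 2) = ι X') :
    ∃ c : K, ι c = x := by
  classical
  set D : K[X] := ∏ ξ ∈ S, (X - C ξ) ^ 2 with hD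
  set B : K → K[X] := fun ξ => ∏ η ∈ S.erase ξ, (X - C η) ^ 2 with hB
  set A : K → K[X] := fun ξ => C (t ξ) * (X - C ξ) + C (u ξ) with hA
  set P₁ : K[X] := (X - C X') * D with hP₁
  set P₂ : K[X] := ∑ ξ ∈ S, A ξ * B ξ with hP₂
  have hDm : D.Monic := monic_prod_of_monic _ _ fun ξ _ => (monic_X_sub_C ξ).pow 2
  have hDdeg : D.natDegree = 2 * S.card := by
    rw [hD, natDegree_prod_of_monic _ _ fun ξ _ => (monic_X_sub_C ξ).pow 2]
    simp [Monic.natDegree_pow (monic_X_sub_C _), mul_comm]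
  have hP₁m : P₁.Monic := (monic_X_sub_C X').mul hDm
  have hP₁deg : P₁.natDegree = 2 * S.card + 1 := by
    rw [hP₁, Monic.natDegree_mul (monic_X_sub_C X') hDm, natDegree_X_sub_C, hDdeg]; ring
  have hP₂deg : P₂.natDegree ≤ 2 * S.card := by
    refine natDegree_sum_le_of_forall_le _ _ fun ξ hξ => ?_
    have hcard : 1 ≤ S.card := Finset.card_pos.2 ⟨ξ, hξ⟩
    have hA1 : (A ξ).natDegree ≤ 1 := by
      rw [hA]
      refine (natDegree_add_le _ _).trans (max_le ?_ (by simp))
      refine natDegree_mul_le.trans ?_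
      simp
    have hB1 : (B ξ).natDegree ≤ 2 * (S.card - 1) := by
      rw [hB]
      refine (natDegree_prod_le _ _).trans ?_
      have : ∀ η ∈ S.erase ξ, ((X - C η : K[X]) ^ 2).natDegree ≤ 2 := fun η _ => by
        rw [Monic.natDegree_pow (monic_X_sub_C _), natDegree_X_sub_C]
      refine (Finset.sum_le_sum this).trans ?_
      simp [Finset.card_erase_of_mem hξ, mul_comm]
    refine natDegree_mul_le.trans ?_
    omega
  have hRm : (P₁ + P₂).Monic := by
    refine hP₁m.add_of_left (degree_lt_degree ?_)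
    omega
  have hR0 : P₁ + P₂ ≠ 0 := hRm.ne_zero
  have hroot : ((P₁ + P₂).map ι).eval x = 0 := by
    have hne : ∀ ξ ∈ S, x - ι ξ ≠ 0 := fun ξ hξ => sub_ne_zero.2 (hx ξ hξ)
    have e1 : (P₁.map ι).eval x = (x - ι X') * ∏ ξ ∈ S, (x - ι ξ) ^ 2 := by
      simp [hP₁, hD, Polynomial.map_prod, eval_prod]
    have e2 : (P₂.map ι).eval x
        = ∑ ξ ∈ S, (ι (t ξ) * (x - ι ξ) + ι (u ξ)) * ∏ η ∈ S.erase ξ, (x - ι η) ^ 2 := by
      simp [hP₂, hA, hB, Polynomial.map_sum, Polynomial.map_prod, eval_finsetSum, eval_prod]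
    rw [Polynomial.map_add, eval_add, e1, e2]
    have h' : x - ι X' = -∑ ξ ∈ S, (ι (t ξ) / (x - ι ξ) + ι (u ξ) / (x - ι ξ) ^ 2) := by
      rw [← h]; ring
    rw [h', neg_mul, Finset.sum_mul, ← Finset.sum_neg_distrib, ← Finset.sum_add_distrib]
    refine Finset.sum_eq_zero fun ξ hξ => ?_
    rw [← Finset.mul_prod_erase S (fun η => (x - ι η) ^ 2) hξ]
    have := hne ξ hξ
    field_simp
    ring
  obtain ⟨c, hc⟩ := (IsAlgClosed.splits (P₁ + P₂)).mem_range_of_isRoot hR0 (i := ι) (x := x) hroot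
  exact ⟨c, hc⟩


/-- a root in `L` of a monic quadratic over the algebraically closed `K` lies in `ι(K)` -/
theorem mzj_pr_mem_range_quadratic {K L : Type*} [Field K] [IsAlgClosed K] [Field L]
    (ι : K →+* L) (a b : K) (y : L) (h : y ^ 2 + ι a * y + ι b = 0) : ∃ c : K, ι c = y := by
  have hm : (X ^ 2 + C a * X + C b : K[X]).Monic := by
    have h1 : (X ^ 2 + (C a * X + C b) : K[X]).Monic := by
      refine (monic_X_pow 2).add_of_left ?_
      rw [degree_X_pow]
      refine (degree_add_le _ _).trans_lt (max_lt ?_ ?_)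
      · refine (degree_C_mul_X_le a).trans_lt ?_
        norm_num
      · refine degree_C_le.trans_lt ?_
        norm_num
    rwa [← add_assoc] at h1
  have hroot : ((X ^ 2 + C a * X + C b : K[X]).map ι).eval y = 0 := by
    simp [h]
  obtain ⟨c, hc⟩ := (IsAlgClosed.splits (X ^ 2 + C a * X + C b : K[X])).mem_range_of_isRoot
    hm.ne_zero (i := ι) (x := y) hroot
  exact ⟨c, hc⟩

/-- **the preimages of a `K`-point under Vélu's isogeny are `K`-points** (coordinate form):
`K` algebraically closed, `(x, y)` a nonsingular point of `W.map ι` over `L` whose Vélu abscissa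
`x + ∑_{ξ ∈ S} (t ξ/(x - ξ) + u ξ/(x - ξ)²)` lies in `ι(K)`; then `(x, y) = (ι cx, ι cy)` for a
nonsingular point `(cx, cy)` of `W`. -/
theorem mzj_pr_exists_coords {K L : Type*} [Field K] [IsAlgClosed K] [Field L] [DecidableEq K]
    (ι : K →+* L) (W : WeierstrassCurve.Affine K) (S : Finset K) (t u : K → K) (X' : K)
    (x y : L) (hxy : (W.map ι).toAffine.Nonsingular x y) (hx : ∀ ξ ∈ S, x ≠ ι ξ)
    (h : x + ∑ ξ ∈ S, (ι (t ξ) / (x - ι ξ) + ι (u ξ) / (x - ι ξ) ^ 2) = ι X') :
    ∃ cx cy : K, ι cx = x ∧ ι cy = y ∧ W.Nonsingular cx cy := by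
  obtain ⟨cx, hcx⟩ := mzj_pr_mem_range ι S t u X' x hx h
  have heq := (WeierstrassCurve.Affine.equation_iff (W := (W.map ι).toAffine) x y).1 hxy.1
  simp only [WeierstrassCurve.map_a₁, WeierstrassCurve.map_a₂, WeierstrassCurve.map_a₃,
    WeierstrassCurve.map_a₄, WeierstrassCurve.map_a₆] at heq
  obtain ⟨cy, hcy⟩ := mzj_pr_mem_range_quadratic ι (W.a₁ * cx + W.a₃)
    (-(cx ^ 3 + W.a₂ * cx ^ 2 + W.a₄ * cx + W.a₆)) y (by
      rw [← hcx] at heq
      simp only [map_add, map_mul, map_neg, map_pow]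
      linear_combination heq)
  refine ⟨cx, cy, hcx, hcy, ?_⟩
  rw [← hcx, ← hcy] at hxy
  exact (WeierstrassCurve.Affine.map_nonsingular (W := W) ι.injective cx cy).1 hxy

end Fermat.Agent.MZ
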