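/-
MAZUR project, node [MZ-J], cell [J-QUOT] by the ANALYTIC route, file `MZ/J/An/Sum.lean`
(helper7, prefix `mzj_av_`).

VELU'S FORMULAS FOR THE WEIERSTRASS FUNCTIONS.  `L ⊂ L' = L + ℤ z₀`, `z₀` of exact order `p`
modulo `L` (structure `mzj_av_Sup L L' z₀ p`).  Then

* `mzj_av_V1` : `℘[L'] z = ℘[L] z + ∑_{k=1}^{p-1} (℘[L] (z + k z₀) - ℘[L] (k z₀))`   (`z ∉ L'`);
* `mzj_av_V1_local` : the same identity near `0` for the regular parts `℘[L' - 0]`, `℘[L - 0]`;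
* `mzj_av_V2` : `℘'[L'] z = ℘'[L] z + ∑_{k=1}^{p-1} ℘'[L] (z + k z₀)`                  (`z ∉ L'`).

Proof: the difference is `L'`-periodic with removable singularities, hence constant
(`mza_th_liouville`), and it vanishes at `0`.
-/
import Mathlib
import Fermat.Agent.MZ.A.Theta.Liouville
import Fermat.Agent.MZ.A.Unif.Collinear

set_option autoImplicit false

noncomputable section

namespace Fermat.Agent.MZ

open Complex Filter Topology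
open scoped PeriodPair

/-- `L' = L + ℤ z₀`, with `z₀` of exact order `p` modulo `L` -/
structure mzj_av_Sup (L L' : PeriodPair) (z₀ : ℂ) (p : ℕ) : Prop where
  pos : 0 < p
  mem_iff : ∀ x : ℂ, x ∈ L'.lattice ↔ ∃ k : ℤ, x - (k : ℂ) * z₀ ∈ L.lattice
  pz : (p : ℂ) * z₀ ∈ L.lattice
  nz : ∀ k : ℕ, 0 < k → k < p → (k : ℂ) * z₀ ∉ L.lattice

variable {L L' : PeriodPair} {z₀ : ℂ} {p : ℕ}

namespace mzj_av_Sup

theorem le (h : mzj_av_Sup L L' z₀ p) {x : ℂ} (hx : x ∈ L.lattice) : x ∈ L'.lattice :=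
  (h.mem_iff x).2 ⟨0, by simp [hx]⟩

theorem zsmul_mem (h : mzj_av_Sup L L' z₀ p) (k : ℤ) : (k : ℂ) * z₀ ∈ L'.lattice :=
  (h.mem_iff _).2 ⟨k, by simp⟩

theorem nsmul_mem (h : mzj_av_Sup L L' z₀ p) (k : ℕ) : (k : ℂ) * z₀ ∈ L'.lattice := by
  have := h.zsmul_mem (k : ℤ)
  simpa using this

theorem z₀_mem (h : mzj_av_Sup L L' z₀ p) : z₀ ∈ L'.lattice := by
  have := h.zsmul_mem 1
  simpa using this

/-- off `L'`, all translates `z + k z₀` are off `L` -/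
theorem add_notMem (h : mzj_av_Sup L L' z₀ p) {z : ℂ} (hz : z ∉ L'.lattice) (k : ℕ) :
    z + (k : ℂ) * z₀ ∉ L.lattice := by
  intro hm
  apply hz
  have h1 := h.le hm
  have h2 := L'.lattice.sub_mem h1 (h.nsmul_mem k)
  rwa [add_sub_cancel_right] at h2

theorem notMem (h : mzj_av_Sup L L' z₀ p) {z : ℂ} (hz : z ∉ L'.lattice) : z ∉ L.lattice :=
  fun hm => hz (h.le hm)

end mzj_av_Sup

/-! ### the trace `T z = ∑_{k < p} ℘[L] (z + k z₀)` -/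

/-- the trace of `℘[L]` over the translates by the multiples of `z₀` -/
def mzj_av_T (L : PeriodPair) (z₀ : ℂ) (p : ℕ) (z : ℂ) : ℂ :=
  ∑ k ∈ Finset.range p, ℘[L] (z + (k : ℂ) * z₀)

theorem mzj_av_T_add_z₀ (h : mzj_av_Sup L L' z₀ p) (z : ℂ) :
    mzj_av_T L z₀ p (z + z₀) = mzj_av_T L z₀ p z := by
  unfold mzj_av_T
  have h1 : ∀ k : ℕ, ℘[L] (z + z₀ + (k : ℂ) * z₀) = ℘[L] (z + ((k + 1 : ℕ) : ℂ) * z₀) := by
    intro k
    congr 1
    push_cast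
    ring
  simp_rw [h1]
  have h2 := Finset.sum_range_succ' (fun k : ℕ => ℘[L] (z + (k : ℂ) * z₀)) p
  have h3 := Finset.sum_range_succ (fun k : ℕ => ℘[L] (z + (k : ℂ) * z₀)) p
  have h4 : ℘[L] (z + (p : ℂ) * z₀) = ℘[L] z := L.weierstrassP_add_coe z ⟨_, h.pz⟩
  have h5 : ℘[L] (z + ((0 : ℕ) : ℂ) * z₀) = ℘[L] z := by simp
  rw [h3, h4] at h2
  rw [h5] at h2
  exact (add_right_cancel h2).symm

theorem mzj_av_T_sub_z₀ (h : mzj_av_Sup L L' z₀ p) (z : ℂ) :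
    mzj_av_T L z₀ p (z - z₀) = mzj_av_T L z₀ p z := by
  have := mzj_av_T_add_z₀ h (z - z₀)
  rw [sub_add_cancel] at this
  exact this.symm

theorem mzj_av_T_add_zsmul (h : mzj_av_Sup L L' z₀ p) (k : ℤ) (z : ℂ) :
    mzj_av_T L z₀ p (z + (k : ℂ) * z₀) = mzj_av_T L z₀ p z := by
  induction k using Int.induction_on with
  | zero => simp
  | succ n ih =>
    have : z + ((n + 1 : ℤ) : ℂ) * z₀ = z + ((n : ℤ) : ℂ) * z₀ + z₀ := by push_cast; ring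
    rw [this, mzj_av_T_add_z₀ h, ih]
  | pred n ih =>
    have : z + ((-(n : ℤ) - 1 : ℤ) : ℂ) * z₀ = z + ((-(n : ℤ) : ℤ) : ℂ) * z₀ - z₀ := by
      push_cast; ring
    rw [this, mzj_av_T_sub_z₀ h, ih]

theorem mzj_av_T_add_coe (z : ℂ) {l : ℂ} (hl : l ∈ L.lattice) :
    mzj_av_T L z₀ p (z + l) = mzj_av_T L z₀ p z := by
  unfold mzj_av_T
  refine Finset.sum_congr rfl fun k _ => ?_
  rw [add_right_comm]
  exact L.weierstrassP_add_coe _ ⟨l, hl⟩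

/-- `T` is `L'`-periodic -/
theorem mzj_av_T_periodic (h : mzj_av_Sup L L' z₀ p) (z : ℂ) {l : ℂ} (hl : l ∈ L'.lattice) :
    mzj_av_T L z₀ p (z + l) = mzj_av_T L z₀ p z := by
  obtain ⟨k, hk⟩ := (h.mem_iff l).1 hl
  have : z + l = z + (k : ℂ) * z₀ + (l - (k : ℂ) * z₀) := by ring
  rw [this, mzj_av_T_add_coe _ hk, mzj_av_T_add_zsmul h]

theorem mzj_av_T_eq (h : mzj_av_Sup L L' z₀ p) (z : ℂ) :
    mzj_av_T L z₀ p z = ℘[L] z + ∑ k ∈ Finset.Ico 1 p, ℘[L] (z + (k : ℂ) * z₀) := by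
  unfold mzj_av_T
  rw [Finset.range_eq_Ico, Finset.sum_eq_sum_Ico_succ_bot h.pos]
  simp

/-! ### the difference `E = ℘[L'] - T + c` -/

/-- the constant `c = ∑_{k=1}^{p-1} ℘[L] (k z₀)` -/
def mzj_av_c (L : PeriodPair) (z₀ : ℂ) (p : ℕ) : ℂ := ∑ k ∈ Finset.Ico 1 p, ℘[L] ((k : ℂ) * z₀)

/-- the difference of the two sides of (V1) -/
def mzj_av_E (L L' : PeriodPair) (z₀ : ℂ) (p : ℕ) (z : ℂ) : ℂ :=
  ℘[L'] z - mzj_av_T L z₀ p z + mzj_av_c L z₀ p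

theorem mzj_av_E_periodic (h : mzj_av_Sup L L' z₀ p) (z l : ℂ) (hl : l ∈ L'.lattice) :
    mzj_av_E L L' z₀ p (z + l) = mzj_av_E L L' z₀ p z := by
  unfold mzj_av_E
  rw [mzj_av_T_periodic h z hl, L'.weierstrassP_add_coe z ⟨l, hl⟩]

/-- the regular model of `E` at `0` -/
def mzj_av_G (L L' : PeriodPair) (z₀ : ℂ) (p : ℕ) (z : ℂ) : ℂ :=
  ℘[L' - (0 : ℂ)] z - ℘[L - (0 : ℂ)] z
    - ∑ k ∈ Finset.Ico 1 p, (℘[L] (z + (k : ℂ) * z₀) - ℘[L] ((k : ℂ) * z₀))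

theorem mzj_av_G_zero : mzj_av_G L L' z₀ p 0 = 0 := by
  unfold mzj_av_G
  simp

theorem mzj_av_analyticAt_G (h : mzj_av_Sup L L' z₀ p) : AnalyticAt ℂ (mzj_av_G L L' z₀ p) 0 := by
  unfold mzj_av_G
  refine ((L'.analyticAt_weierstrassPExcept 0).sub (L.analyticAt_weierstrassPExcept 0)).sub ?_
  refine Finset.analyticAt_fun_sum _ fun k hk => ?_
  rw [Finset.mem_Ico] at hk
  refine (mza_u_analyticAt_P_shift L ?_).sub analyticAt_const
  rw [zero_add]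
  exact h.nz k (by omega) hk.2

theorem mzj_av_P_eq_except (L : PeriodPair) (z : ℂ) :
    ℘[L] z = ℘[L - (0 : ℂ)] z + 1 / z ^ 2 := by
  have := L.weierstrassPExcept_add ⟨0, L.lattice.zero_mem⟩ z
  simp only [sub_zero] at this
  rw [← this]
  simp

theorem mzj_av_E_eq_G (h : mzj_av_Sup L L' z₀ p) (z : ℂ) :
    mzj_av_E L L' z₀ p z = mzj_av_G L L' z₀ p z := by
  unfold mzj_av_E mzj_av_G mzj_av_c
  rw [mzj_av_T_eq h, mzj_av_P_eq_except L', mzj_av_P_eq_except L, Finset.sum_sub_distrib]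
  ring

theorem mzj_av_analyticAt_E (h : mzj_av_Sup L L' z₀ p) {z : ℂ} (hz : z ∉ L'.lattice) :
    AnalyticAt ℂ (mzj_av_E L L' z₀ p) z := by
  unfold mzj_av_E mzj_av_T
  refine ((L'.analyticOnNhd_weierstrassP z hz).sub ?_).add analyticAt_const
  refine Finset.analyticAt_fun_sum _ fun k _ => ?_
  exact mza_u_analyticAt_P_shift L (h.add_notMem hz k)

/-- **`E` vanishes identically** (Liouville) -/
theorem mzj_av_E_eventually (h : mzj_av_Sup L L' z₀ p) (z₁ : ℂ) :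
    ∀ᶠ z in 𝓝[≠] z₁, mzj_av_E L L' z₀ p z = 0 := by
  have hloc : ∀ z1 : ℂ, ∃ G : ℂ → ℂ, AnalyticAt ℂ G z1 ∧
      ∀ᶠ z in 𝓝[≠] z1, mzj_av_E L L' z₀ p z = G z := by
    intro z1
    by_cases hz1 : z1 ∈ L'.lattice
    · refine ⟨fun z => mzj_av_G L L' z₀ p (z - z1), ?_, ?_⟩
      · have h1 : AnalyticAt ℂ (mzj_av_G L L' z₀ p) ((fun z : ℂ => z - z1) z1) := by
          simpa using mzj_av_analyticAt_G h
        exact h1.comp (g := mzj_av_G L L' z₀ p) (f := fun z : ℂ => z - z1) (by fun_prop)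
      · refine Eventually.of_forall fun z => ?_
        show mzj_av_E L L' z₀ p z = mzj_av_G L L' z₀ p (z - z1)
        rw [← mzj_av_E_eq_G h]
        have := mzj_av_E_periodic h (z - z1) z1 hz1
        rw [sub_add_cancel] at this
        exact this
    · exact ⟨_, mzj_av_analyticAt_E h hz1, Eventually.of_forall fun _ => rfl⟩
  obtain ⟨c, hc⟩ := mza_th_liouville L' (mzj_av_E L L' z₀ p) (mzj_av_E_periodic h) hloc
  have hc0 : c = 0 := by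
    have h1 : Tendsto (mzj_av_G L L' z₀ p) (𝓝[≠] 0) (𝓝 (mzj_av_G L L' z₀ p 0)) :=
      (mzj_av_analyticAt_G h).continuousAt.tendsto.mono_left nhdsWithin_le_nhds
    have h2 : Tendsto (mzj_av_G L L' z₀ p) (𝓝[≠] 0) (𝓝 c) := by
      refine (tendsto_const_nhds (x := c)).congr' ?_
      filter_upwards [hc 0] with z hz
      rw [← hz, mzj_av_E_eq_G h]
    rw [mzj_av_G_zero] at h1
    exact tendsto_nhds_unique h2 h1
  rw [hc0] at hc
  exact hc z₁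

theorem mzj_av_E_eq_zero (h : mzj_av_Sup L L' z₀ p) {z : ℂ} (hz : z ∉ L'.lattice) :
    mzj_av_E L L' z₀ p z = 0 := by
  have h1 : Tendsto (mzj_av_E L L' z₀ p) (𝓝[≠] z) (𝓝 (mzj_av_E L L' z₀ p z)) :=
    (mzj_av_analyticAt_E h hz).continuousAt.tendsto.mono_left nhdsWithin_le_nhds
  have h2 : Tendsto (mzj_av_E L L' z₀ p) (𝓝[≠] z) (𝓝 0) :=
    (tendsto_const_nhds (x := (0 : ℂ))).congr' ((mzj_av_E_eventually h z).mono fun _ hw => hw.symm)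
  exact tendsto_nhds_unique h1 h2

/-- **(V1)** -/
theorem mzj_av_V1 (h : mzj_av_Sup L L' z₀ p) {z : ℂ} (hz : z ∉ L'.lattice) :
    ℘[L'] z = ℘[L] z + ∑ k ∈ Finset.Ico 1 p, (℘[L] (z + (k : ℂ) * z₀) - ℘[L] ((k : ℂ) * z₀)) := by
  have h0 := mzj_av_E_eq_zero h hz
  unfold mzj_av_E mzj_av_c at h0
  rw [mzj_av_T_eq h] at h0
  rw [Finset.sum_sub_distrib]
  linear_combination h0

/-- (V1) for the regular parts, on a full neighbourhood of `0` -/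
theorem mzj_av_V1_local (h : mzj_av_Sup L L' z₀ p) :
    ∀ᶠ z in 𝓝 (0 : ℂ), mzj_av_G L L' z₀ p z = 0 := by
  have h1 := mzj_av_E_eventually h 0
  rw [eventually_nhdsWithin_iff] at h1
  filter_upwards [h1] with z hz
  by_cases hz0 : z = 0
  · rw [hz0, mzj_av_G_zero]
  · rw [← mzj_av_E_eq_G h]
    exact hz hz0

/-- **(V2)** -/
theorem mzj_av_V2 (h : mzj_av_Sup L L' z₀ p) {z : ℂ} (hz : z ∉ L'.lattice) :
    ℘'[L'] z = ℘'[L] z + ∑ k ∈ Finset.Ico 1 p, ℘'[L] (z + (k : ℂ) * z₀) := by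
  have hU : ∀ᶠ w in 𝓝 z, w ∉ L'.lattice := L'.isClosed_lattice.isOpen_compl.mem_nhds hz
  have heq : ℘[L'] =ᶠ[𝓝 z] fun w => ℘[L] w + ∑ k ∈ Finset.Ico 1 p,
      (℘[L] (w + (k : ℂ) * z₀) - ℘[L] ((k : ℂ) * z₀)) := by
    filter_upwards [hU] with w hw using mzj_av_V1 h hw
  have h1 : HasDerivAt ℘[L'] (℘'[L'] z) z := mza_u_hasDerivAt_P L' hz
  have h2 : HasDerivAt (fun w => ℘[L] w + ∑ k ∈ Finset.Ico 1 p,
      (℘[L] (w + (k : ℂ) * z₀) - ℘[L] ((k : ℂ) * z₀)))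
      (℘'[L] z + ∑ k ∈ Finset.Ico 1 p, ℘'[L] (z + (k : ℂ) * z₀)) z := by
    refine (mza_u_hasDerivAt_P L (h.notMem hz)).add ?_
    refine HasDerivAt.fun_sum fun k _ => ?_
    have h3 : HasDerivAt ℘[L] (℘'[L] (z + (k : ℂ) * z₀)) (z + (k : ℂ) * z₀) :=
      mza_u_hasDerivAt_P L (h.add_notMem hz k)
    exact (h3.comp_add_const z ((k : ℂ) * z₀)).sub_const _
  exact h1.unique (h2.congr_of_eventuallyEq heq)

end Fermat.Agent.MZ
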