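/-
MAZUR project, node [MZ-J], cell [J-QUOT] by the ANALYTIC route, file `MZ/J/An/Coeff.lean`
(helper7, prefix `mzj_av_`).

VELU'S FORMULAS FOR THE INVARIANTS.  `L ⊂ L' = L + ℤ z₀` (`mzj_av_Sup L L' z₀ p`), `x_k = ℘[L] (k z₀)`:

* `mzj_av_g₂` : `g₂(L') = g₂(L) + 10 ∑_{k=1}^{p-1} (6 x_k² - g₂(L)/2)`;
* `mzj_av_g₃` : `g₃(L') = g₃(L) + 7 ∑_{k=1}^{p-1} (20 x_k³ - 3 g₂(L) x_k - 2 g₃(L))`.

Proof: the second and fourth derivative at `0` of the local form of (V1) (`mzj_av_V1_local`).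
-/
import Mathlib
import Fermat.Agent.MZ.J.An.Sum

set_option autoImplicit false

noncomputable section

namespace Fermat.Agent.MZ

open Complex Filter Topology Nat
open scoped PeriodPair

variable {L L' : PeriodPair} {z₀ : ℂ} {p : ℕ}

/-- `℘'''' = 120 ℘³ - 18 g₂ ℘ - 12 g₃` -/
theorem mzj_av_iteratedDeriv_four (L : PeriodPair) {z : ℂ} (hz : z ∉ L.lattice) :
    iteratedDeriv 4 ℘[L] z = 120 * ℘[L] z ^ 3 - 18 * L.g₂ * ℘[L] z - 12 * L.g₃ := by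
  rw [iteratedDeriv_succ, mza_u_iteratedDeriv_P_three]
  have hU := mza_u_isOpen_compl_lattice L
  have heq : mza_u_P3 L =ᶠ[𝓝 z] fun y => 12 * ℘[L] y * ℘'[L] y := by
    filter_upwards [hU.mem_nhds hz] with y hy
    exact mza_u_P3_eq L hy
  have h2 : HasDerivAt (fun y => 12 * ℘[L] y * ℘'[L] y)
      (12 * ℘'[L] z * ℘'[L] z + 12 * ℘[L] z * mza_u_P2 L z) z := by
    have hp := mza_u_hasDerivAt_P L hz
    have hp1 := mza_u_hasDerivAt_P1 L hz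
    exact (hp.const_mul 12).mul hp1
  rw [(h2.congr_of_eventuallyEq heq).deriv, mza_u_P2_eq L hz]
  have hsq := L.derivWeierstrassP_sq z hz
  linear_combination 12 * hsq

/-- `℘'' = 6 ℘² - g₂ / 2` -/
theorem mzj_av_iteratedDeriv_two (L : PeriodPair) {z : ℂ} (hz : z ∉ L.lattice) :
    iteratedDeriv 2 ℘[L] z = 6 * ℘[L] z ^ 2 - L.g₂ / 2 := by
  rw [mza_u_iteratedDeriv_P_two, mza_u_P2_eq L hz]

/-- the `n`-th derivative at `0` of the local form of (V1), `n ≥ 1` -/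
theorem mzj_av_iteratedDeriv_G (h : mzj_av_Sup L L' z₀ p) {n : ℕ} (hn : 0 < n) :
    iteratedDeriv n (mzj_av_G L L' z₀ p) 0 =
      ((n + 1)! : ℂ) * L'.G (n + 2) - ((n + 1)! : ℂ) * L.G (n + 2)
        - ∑ k ∈ Finset.Ico 1 p, iteratedDeriv n ℘[L] ((k : ℂ) * z₀) := by
  have hn0 : n ≠ 0 := hn.ne'
  have hA : ContDiffAt ℂ n ℘[L' - (0 : ℂ)] 0 := (L'.analyticAt_weierstrassPExcept 0).contDiffAt
  have hB : ContDiffAt ℂ n ℘[L - (0 : ℂ)] 0 := (L.analyticAt_weierstrassPExcept 0).contDiffAt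
  have hk : ∀ k ∈ Finset.Ico 1 p,
      ContDiffAt ℂ n (fun z => ℘[L] (z + (k : ℂ) * z₀) - ℘[L] ((k : ℂ) * z₀)) 0 := by
    intro k hk
    rw [Finset.mem_Ico] at hk
    refine ((mza_u_analyticAt_P_shift L ?_).sub analyticAt_const).contDiffAt
    rw [zero_add]
    exact h.nz k (by omega) hk.2
  have hS : ContDiffAt ℂ n (fun z => ∑ k ∈ Finset.Ico 1 p,
      (℘[L] (z + (k : ℂ) * z₀) - ℘[L] ((k : ℂ) * z₀))) 0 := ContDiffAt.sum hk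
  have e1 : mzj_av_G L L' z₀ p = fun z => (℘[L' - (0 : ℂ)] z - ℘[L - (0 : ℂ)] z)
      - ∑ k ∈ Finset.Ico 1 p, (℘[L] (z + (k : ℂ) * z₀) - ℘[L] ((k : ℂ) * z₀)) := rfl
  rw [e1, iteratedDeriv_fun_sub (hA.sub hB) hS, iteratedDeriv_fun_sub hA hB,
    iteratedDeriv_fun_sum hk, L'.iteratedDeriv_weierstrassPExcept_self,
    L.iteratedDeriv_weierstrassPExcept_self, if_neg hn0, if_neg hn0, PeriodPair.sumInvPow_zero,
    PeriodPair.sumInvPow_zero]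
  congr 1
  refine Finset.sum_congr rfl fun k hk => ?_
  have h1 : (fun z => ℘[L] (z + (k : ℂ) * z₀) - ℘[L] ((k : ℂ) * z₀))
      = fun z => -℘[L] ((k : ℂ) * z₀) + ℘[L] (z + (k : ℂ) * z₀) := by
    funext z; ring
  rw [h1, iteratedDeriv_const_add hn, iteratedDeriv_comp_add_const]
  show iteratedDeriv n ℘[L] (0 + (k : ℂ) * z₀) = _
  rw [zero_add]

theorem mzj_av_iteratedDeriv_G_zero (h : mzj_av_Sup L L' z₀ p) (n : ℕ) :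
    iteratedDeriv n (mzj_av_G L L' z₀ p) 0 = 0 := by
  have h1 : mzj_av_G L L' z₀ p =ᶠ[𝓝 0] fun _ => (0 : ℂ) := mzj_av_V1_local h
  rw [h1.iteratedDeriv_eq n, iteratedDeriv_const]
  split_ifs <;> rfl

/-- the lattice sums: `(n+1)! (G_{n+2}(L') - G_{n+2}(L)) = ∑ ℘^{(n)} (k z₀)` -/
theorem mzj_av_G_sub (h : mzj_av_Sup L L' z₀ p) {n : ℕ} (hn : 0 < n) :
    ((n + 1)! : ℂ) * (L'.G (n + 2) - L.G (n + 2))
      = ∑ k ∈ Finset.Ico 1 p, iteratedDeriv n ℘[L] ((k : ℂ) * z₀) := by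
  have h1 := mzj_av_iteratedDeriv_G h hn
  rw [mzj_av_iteratedDeriv_G_zero h n] at h1
  linear_combination -h1

/-- **(V3), `g₂`** -/
theorem mzj_av_g₂ (h : mzj_av_Sup L L' z₀ p) :
    L'.g₂ = L.g₂ + 10 * ∑ k ∈ Finset.Ico 1 p, (6 * ℘[L] ((k : ℂ) * z₀) ^ 2 - L.g₂ / 2) := by
  have h1 := mzj_av_G_sub h (n := 2) (by norm_num)
  have h2 : ∑ k ∈ Finset.Ico 1 p, iteratedDeriv 2 ℘[L] ((k : ℂ) * z₀)
      = ∑ k ∈ Finset.Ico 1 p, (6 * ℘[L] ((k : ℂ) * z₀) ^ 2 - L.g₂ / 2) := by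
    refine Finset.sum_congr rfl fun k hk => ?_
    rw [Finset.mem_Ico] at hk
    exact mzj_av_iteratedDeriv_two L (h.nz k (by omega) hk.2)
  rw [h2] at h1
  have h3 : ((2 + 1)! : ℂ) = 6 := by norm_num [Nat.factorial]
  rw [h3] at h1
  have h1' : 6 * (L'.G 4 - L.G 4)
      = ∑ k ∈ Finset.Ico 1 p, (6 * ℘[L] ((k : ℂ) * z₀) ^ 2 - L.g₂ / 2) := h1
  have e' : L'.g₂ = 60 * L'.G 4 := rfl
  have e : L.g₂ = 60 * L.G 4 := rfl
  linear_combination e' - e + 10 * h1'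

/-- **(V3), `g₃`** -/
theorem mzj_av_g₃ (h : mzj_av_Sup L L' z₀ p) :
    L'.g₃ = L.g₃ + 7 * ∑ k ∈ Finset.Ico 1 p,
      (20 * ℘[L] ((k : ℂ) * z₀) ^ 3 - 3 * L.g₂ * ℘[L] ((k : ℂ) * z₀) - 2 * L.g₃) := by
  have h1 := mzj_av_G_sub h (n := 4) (by norm_num)
  have h2 : ∑ k ∈ Finset.Ico 1 p, iteratedDeriv 4 ℘[L] ((k : ℂ) * z₀)
      = ∑ k ∈ Finset.Ico 1 p, (120 * ℘[L] ((k : ℂ) * z₀) ^ 3 - 18 * L.g₂ * ℘[L] ((k : ℂ) * z₀)
          - 12 * L.g₃) := by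
    refine Finset.sum_congr rfl fun k hk => ?_
    rw [Finset.mem_Ico] at hk
    exact mzj_av_iteratedDeriv_four L (h.nz k (by omega) hk.2)
  rw [h2] at h1
  have h3 : ((4 + 1)! : ℂ) = 120 := by norm_num [Nat.factorial]
  rw [h3] at h1
  have h4 : ∑ k ∈ Finset.Ico 1 p, (120 * ℘[L] ((k : ℂ) * z₀) ^ 3 - 18 * L.g₂ * ℘[L] ((k : ℂ) * z₀)
          - 12 * L.g₃) = 6 * ∑ k ∈ Finset.Ico 1 p,
      (20 * ℘[L] ((k : ℂ) * z₀) ^ 3 - 3 * L.g₂ * ℘[L] ((k : ℂ) * z₀) - 2 * L.g₃) := by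
    rw [Finset.mul_sum]
    refine Finset.sum_congr rfl fun k _ => ?_
    ring
  rw [h4] at h1
  have h1' : 120 * (L'.G 6 - L.G 6) = 6 * ∑ k ∈ Finset.Ico 1 p,
      (20 * ℘[L] ((k : ℂ) * z₀) ^ 3 - 3 * L.g₂ * ℘[L] ((k : ℂ) * z₀) - 2 * L.g₃) := h1
  have e' : L'.g₃ = 140 * L'.G 6 := rfl
  have e : L.g₃ = 140 * L.G 6 := rfl
  linear_combination e' - e + (7 / 6 : ℂ) * h1'

end Fermat.Agent.MZ
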