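/-
MAZUR project, node [MZ-J], cell [J-QUOT] by the ANALYTIC route, file `MZ/J/An/Isog.lean`
(helper7, prefix `mzj_av_`).

VELU'S ISOGENY OVER `ℂ` FOR THE CURVE OF A LATTICE.  `E_L : Y² = X³ + a₄ X + a₆`
(`a₄ = -g₂/4`, `a₆ = -g₃/4`, `mza_uh_curve L`), `Q ∈ E_L(ℂ)` of prime order `p`.  Then with
`v = ∑_{k=1}^{p-1} (3 x(k•Q)² + a₄)`, `w = ∑_{k=1}^{p-1} (5 x(k•Q)³ + 3 a₄ x(k•Q) + 2 a₆)` there is a
lattice `L'` with `a₄(L') = a₄ - 5 v`, `a₆(L') = a₆ - 7 w` and a SURJECTIVE HOMOMORPHISM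
`φ : E_L(ℂ) →+ E_L'(ℂ)` with kernel `⟨Q⟩`, given off the kernel by Velu's formulas
`x(φ P) = x_P + ∑_k (x(P + k•Q) - x(k•Q))`, `y(φ P) = y_P + ∑_k y(P + k•Q)`   (`mzj_av_isog`).

`φ` is the identity of `ℂ` read through the two Weierstrass uniformisations: `φ (Φ_L z) = Φ_L' z`.
-/
import Mathlib
import Fermat.Agent.MZ.A.Lat.Sup
import Fermat.Agent.MZ.A.Unif.Closed
import Fermat.Agent.MZ.A.Unif.PhiTors
import Fermat.Agent.MZ.J.An.Coeff

set_option autoImplicit false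

noncomputable section

namespace Fermat.Agent.MZ

open Complex
open scoped PeriodPair

/-- the `x`-coordinate of a point (`0` at the origin) -/
def mzj_av_px {F : Type*} [CommRing F] {W : WeierstrassCurve.Affine F} : W.Point → F
  | .zero => 0
  | .some x _ _ => x

/-- the `y`-coordinate of a point (`0` at the origin) -/
def mzj_av_py {F : Type*} [CommRing F] {W : WeierstrassCurve.Affine F} : W.Point → F
  | .zero => 0
  | .some _ y _ => y

@[simp] theorem mzj_av_px_zero {F : Type*} [CommRing F] {W : WeierstrassCurve.Affine F} :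
    mzj_av_px (0 : W.Point) = 0 := rfl

@[simp] theorem mzj_av_py_zero {F : Type*} [CommRing F] {W : WeierstrassCurve.Affine F} :
    mzj_av_py (0 : W.Point) = 0 := rfl

@[simp] theorem mzj_av_px_some {F : Type*} [CommRing F] {W : WeierstrassCurve.Affine F} {x y : F}
    (h : W.Nonsingular x y) : mzj_av_px (.some x y h : W.Point) = x := rfl

@[simp] theorem mzj_av_py_some {F : Type*} [CommRing F] {W : WeierstrassCurve.Affine F} {x y : F}
    (h : W.Nonsingular x y) : mzj_av_py (.some x y h : W.Point) = y := rfl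

variable (L : PeriodPair)

/-- `x (Φ z) = ℘ z` for ALL `z` (both sides vanish on the lattice) -/
theorem mzj_av_px_Phi (z : ℂ) : mzj_av_px (mza_uh_Phi L z) = ℘[L] z := by
  by_cases hz : z ∈ L.lattice
  · rw [mza_uh_Phi_of_mem L hz, mzj_av_px_zero]
    exact (L.weierstrassP_coe ⟨z, hz⟩).symm
  · rw [mza_uh_Phi_of_notMem L hz, mzj_av_px_some]

/-- `y (Φ z) = ℘' z / 2` for ALL `z` -/
theorem mzj_av_py_Phi (z : ℂ) : mzj_av_py (mza_uh_Phi L z) = ℘'[L] z / 2 := by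
  by_cases hz : z ∈ L.lattice
  · rw [mza_uh_Phi_of_mem L hz, mzj_av_py_zero]
    have := L.derivWeierstrassP_coe ⟨z, hz⟩
    simp only at this
    rw [this, zero_div]
  · rw [mza_uh_Phi_of_notMem L hz, mzj_av_py_some]

variable {L}

/-- **the isogeny attached to an inclusion of lattices**: `φ (Φ_L z) = Φ_L' z` -/
theorem mzj_av_exists_hom {L L' : PeriodPair} (hle : ∀ x ∈ L.lattice, x ∈ L'.lattice) :
    ∃ φ : (mza_uh_curve L).toAffine.Point →+ (mza_uh_curve L').toAffine.Point,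
      ∀ z : ℂ, φ (mza_uh_Phi L z) = mza_uh_Phi L' z := by
  have hf : Function.Surjective (mza_u_PhiHom L) := mza_u_PhiHom_surjective L
  have hker : (mza_u_PhiHom L).ker ≤ (mza_u_PhiHom L').ker := by
    intro z hz
    rw [AddMonoidHom.mem_ker, mza_u_PhiHom_ker] at hz ⊢
    exact hle z hz
  refine ⟨(mza_u_PhiHom L).liftOfRightInverse (Function.surjInv hf)
    (Function.rightInverse_surjInv hf) ⟨mza_u_PhiHom L', hker⟩, fun z => ?_⟩
  have := AddMonoidHom.liftOfRightInverse_comp_apply (mza_u_PhiHom L) (Function.surjInv hf)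
    (Function.rightInverse_surjInv hf) ⟨mza_u_PhiHom L', hker⟩ z
  simpa using this

/-- **Velu's isogeny over `ℂ`** for the curve of a lattice and a point of prime order -/
theorem mzj_av_isog (L : PeriodPair) {p : ℕ} (hp : p.Prime)
    (Q : (mza_uh_curve L).toAffine.Point) (hQ : addOrderOf Q = p) :
    ∃ (L' : PeriodPair)
      (φ : (mza_uh_curve L).toAffine.Point →+ (mza_uh_curve L').toAffine.Point),
      -L'.g₂ / 4 = -L.g₂ / 4
        - 5 * ∑ k ∈ Finset.Ico 1 p, (3 * mzj_av_px (k • Q) ^ 2 + -L.g₂ / 4) ∧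
      -L'.g₃ / 4 = -L.g₃ / 4
        - 7 * ∑ k ∈ Finset.Ico 1 p, (5 * mzj_av_px (k • Q) ^ 3
            + 3 * (-L.g₂ / 4) * mzj_av_px (k • Q) + 2 * (-L.g₃ / 4)) ∧
      Function.Surjective φ ∧ φ.ker = AddSubgroup.zmultiples Q ∧
      ∀ P : (mza_uh_curve L).toAffine.Point, P ∉ AddSubgroup.zmultiples Q →
        mzj_av_px (φ P) = mzj_av_px P
          + ∑ k ∈ Finset.Ico 1 p, (mzj_av_px (P + k • Q) - mzj_av_px (k • Q)) ∧
        mzj_av_py (φ P) = mzj_av_py P + ∑ k ∈ Finset.Ico 1 p, mzj_av_py (P + k • Q) := by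
  have hA := mza_u_addHyp L
  obtain ⟨z₀, hz₀Q, hz₀, hpz, hkQ, -, hnz⟩ := mza_uh_torsion L hA hp.two_le Q hQ
  obtain ⟨L', hmem, hle, -, -⟩ := mza_la_sup L p hp z₀ hz₀ hpz
  have hS : mzj_av_Sup L L' z₀ p := ⟨hp.pos, hmem, hpz, hnz⟩
  obtain ⟨φ, hφ⟩ := mzj_av_exists_hom (L := L) (L' := L') hle
  have hx : ∀ k : ℕ, mzj_av_px (k • Q) = ℘[L] ((k : ℂ) * z₀) := fun k => by
    rw [hkQ, mzj_av_px_Phi]
  -- membership in the kernel
  have hzm : ∀ z : ℂ, mza_uh_Phi L z ∈ AddSubgroup.zmultiples Q ↔ z ∈ L'.lattice := by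
    intro z
    rw [hmem, AddSubgroup.mem_zmultiples_iff]
    constructor
    · rintro ⟨k, hk⟩
      refine ⟨k, ?_⟩
      rw [← hz₀Q, ← mza_uh_Phi_zsmul L hA, eq_comm, mza_uh_Phi_inj L hA] at hk
      exact hk
    · rintro ⟨k, hk⟩
      refine ⟨k, ?_⟩
      rw [← hz₀Q, ← mza_uh_Phi_zsmul L hA, eq_comm, mza_uh_Phi_inj L hA]
      exact hk
  refine ⟨L', φ, ?_, ?_, ?_, ?_, ?_⟩
  · rw [mzj_av_g₂ hS, Finset.mul_sum, Finset.mul_sum]
    have : ∀ k ∈ Finset.Ico 1 p, 5 * (3 * mzj_av_px (k • Q) ^ 2 + -L.g₂ / 4)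
        = (10 / 4 : ℂ) * (6 * ℘[L] ((k : ℂ) * z₀) ^ 2 - L.g₂ / 2) := by
      intro k _
      rw [hx]
      ring
    rw [Finset.sum_congr rfl this, ← Finset.mul_sum, ← Finset.mul_sum]
    ring
  · rw [mzj_av_g₃ hS, Finset.mul_sum, Finset.mul_sum]
    have : ∀ k ∈ Finset.Ico 1 p, 7 * (5 * mzj_av_px (k • Q) ^ 3
            + 3 * (-L.g₂ / 4) * mzj_av_px (k • Q) + 2 * (-L.g₃ / 4))
        = (7 / 4 : ℂ) * (20 * ℘[L] ((k : ℂ) * z₀) ^ 3 - 3 * L.g₂ * ℘[L] ((k : ℂ) * z₀)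
            - 2 * L.g₃) := by
      intro k _
      rw [hx]
      ring
    rw [Finset.sum_congr rfl this, ← Finset.mul_sum, ← Finset.mul_sum]
    ring
  · intro P'
    obtain ⟨z, rfl⟩ := mza_uh_Phi_surjective L' P'
    exact ⟨mza_uh_Phi L z, hφ z⟩
  · ext P
    obtain ⟨z, rfl⟩ := mza_uh_Phi_surjective L P
    rw [AddMonoidHom.mem_ker, hφ, mza_uh_Phi_eq_zero_iff, hzm]
  · intro P hP
    obtain ⟨z, rfl⟩ := mza_uh_Phi_surjective L P
    have hz : z ∉ L'.lattice := fun h => hP ((hzm z).2 h)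
    have hadd : ∀ k : ℕ, mza_uh_Phi L z + k • Q = mza_uh_Phi L (z + (k : ℂ) * z₀) := fun k => by
      rw [hkQ, ← mza_uh_Phi_add hA]
    rw [hφ, mzj_av_px_Phi, mzj_av_py_Phi, mzj_av_px_Phi, mzj_av_py_Phi, mzj_av_V1 hS hz,
      mzj_av_V2 hS hz]
    constructor
    · congr 1
      refine Finset.sum_congr rfl fun k _ => ?_
      rw [hadd, mzj_av_px_Phi, hx]
    · rw [add_div, Finset.sum_div]
      congr 1
      refine Finset.sum_congr rfl fun k _ => ?_
      rw [hadd, mzj_av_py_Phi]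

end Fermat.Agent.MZ
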