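/-
MAZUR project, node [MZ-J], cell [J-QUOT] (analytic route), file `MZ/J/An/Pair.lean`
(helper2, prefix `mzj_pr_`).  Mathlib only; PURE ALGEBRA over any field, general Weierstrass form.

THE BRIDGE from the shape `x(φ P) = x_P + ∑_{0<k<p} (x(P + k•Q₀) - x(k•Q₀))` of Vélu's isogeny to
the HALF-SYSTEM / RATIONAL-FUNCTION shape ((R6)(b),(c) of ruling #3072):

* `mzj_pr_pair`   : `x(P + Q) + x(P - Q) = 2 x_Q + t_Q/(x_P - x_Q) + u_Q/(x_P - x_Q)²`,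
                    `t_Q = 6x_Q² + b₂x_Q + b₄`, `u_Q = 4x_Q³ + b₂x_Q² + 2b₄x_Q + b₆`;
* `mzj_pr_half`   : `∑_{0<k<2m+1} f (k•Q₀) = ∑_{0<k≤m} (f (k•Q₀) + f (-(k•Q₀)))` if `(2m+1)•Q₀ = 0`;
* `mzj_pr_velu_X` : `∑_{0<k<2m+1} (x(P + k•Q₀) - x(k•Q₀)) = ∑_{0<k≤m} (t_k/(x_P - x_k) + u_k/(x_P - x_k)²)`
                    for `Q₀` of order `2m+1` and `P ∉ ⟨Q₀⟩`;
* `mzj_pr_v_short`, `mzj_pr_w_short` : in short form, `∑_{N∖0} (3x² + a₄) = ∑_S t`,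
                    `∑_{N∖0} (5x³ + 3a₄x + 2a₆) = ∑_S (u + x t)`.
-/
import Mathlib

set_option autoImplicit false

noncomputable section

namespace Fermat.Agent.MZ

open WeierstrassCurve WeierstrassCurve.Affine

variable {F : Type*} [Field F] {W : WeierstrassCurve.Affine F}

/-- the `x`-coordinate of a point (`0` at the origin) -/
def mzj_pr_X : W.Point → F
  | .zero => 0
  | .some x _ _ => x

@[simp] theorem mzj_pr_X_zero : mzj_pr_X (0 : W.Point) = 0 := rfl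

@[simp] theorem mzj_pr_X_some {x y : F} (h : W.Nonsingular x y) :
    mzj_pr_X (Point.some x y h : W.Point) = x := rfl

theorem mzj_pr_X_neg (P : W.Point) : mzj_pr_X (-P) = mzj_pr_X P := by
  cases P <;> rfl

/-- Vélu's `t_Q = 6 x² + b₂ x + b₄` -/
def mzj_pr_t (W : WeierstrassCurve.Affine F) (x : F) : F := 6 * x ^ 2 + W.b₂ * x + W.b₄

/-- Vélu's `u_Q = 4 x³ + b₂ x² + 2 b₄ x + b₆` (`= ψ₂(Q)²`) -/
def mzj_pr_u (W : WeierstrassCurve.Affine F) (x : F) : F :=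
  4 * x ^ 3 + W.b₂ * x ^ 2 + 2 * W.b₄ * x + W.b₆

variable [DecidableEq F]

/-- **the pair formula**: `x(P + Q) + x(P - Q) = 2 x_Q + t_Q/(x_P - x_Q) + u_Q/(x_P - x_Q)²` -/
theorem mzj_pr_pair {x y xq yq : F} (hP : W.Nonsingular x y) (hQ : W.Nonsingular xq yq)
    (hx : x ≠ xq) :
    mzj_pr_X (Point.some x y hP + Point.some xq yq hQ)
      + mzj_pr_X (Point.some x y hP - Point.some xq yq hQ)
      = 2 * xq + mzj_pr_t W xq / (x - xq) + mzj_pr_u W xq / (x - xq) ^ 2 := by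
  have e1 := (equation_iff x y).1 hP.1
  have e2 := (equation_iff xq yq).1 hQ.1
  have hd : x - xq ≠ 0 := sub_ne_zero.2 hx
  rw [sub_eq_add_neg, Point.neg_some, Point.add_of_X_ne hx, Point.add_of_X_ne hx]
  simp only [mzj_pr_X_some, addX, slope_of_X_ne hx, negY, mzj_pr_t, mzj_pr_u,
    WeierstrassCurve.b₂, WeierstrassCurve.b₄, WeierstrassCurve.b₆]
  field_simp
  linear_combination 2 * e1 + 2 * e2

/-- **half system, index form**: for `Q₀` killed by the odd number `2 m + 1`,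
`∑_{0<k<2m+1} f (k • Q₀) = ∑_{0<k≤m} (f (k • Q₀) + f (-(k • Q₀)))`. -/
theorem mzj_pr_half {G M : Type*} [AddCommGroup G] [AddCommMonoid M] (f : G → M) (Q₀ : G) (m : ℕ)
    (hQ : (2 * m + 1) • Q₀ = 0) :
    ∑ k ∈ Finset.Ico 1 (2 * m + 1), f (k • Q₀)
      = ∑ k ∈ Finset.Ico 1 (m + 1), (f (k • Q₀) + f (-(k • Q₀))) := by
  have h1 : ∑ k ∈ Finset.Ico 1 (2 * m + 1), f (k • Q₀)
      = ∑ k ∈ Finset.Ico 1 (m + 1), f (k • Q₀) + ∑ k ∈ Finset.Ico (m + 1) (2 * m + 1), f (k • Q₀) :=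
    (Finset.sum_Ico_consecutive (fun k => f (k • Q₀)) (by omega) (by omega)).symm
  have h2 := Finset.sum_Ico_reflect (fun k => f (k • Q₀)) 1 (m := m + 1) (n := 2 * m + 1)
    (by omega)
  have h3 : 2 * m + 1 + 1 - (m + 1) = m + 1 := by omega
  have h4 : 2 * m + 1 + 1 - 1 = 2 * m + 1 := by omega
  rw [h3, h4] at h2
  rw [h1, ← h2, ← Finset.sum_add_distrib]
  refine Finset.sum_congr rfl fun k hk => ?_
  rw [Finset.mem_Ico] at hk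
  congr 2
  have : (2 * m + 1 - k) • Q₀ + k • Q₀ = 0 := by
    rw [← add_smul, Nat.sub_add_cancel (by omega), hQ]
  exact eq_neg_of_add_eq_zero_left this


/-- a point outside `⟨Q₀⟩` has an abscissa different from those of the nonzero multiples of `Q₀` -/
theorem mzj_pr_X_ne {Q₀ P : W.Point} (hP : P ∉ AddSubgroup.zmultiples Q₀) {k : ℕ}
    {x y xk yk : F} {h : W.Nonsingular x y} {hk : W.Nonsingular xk yk}
    (hPe : P = Point.some x y h) (hke : k • Q₀ = Point.some xk yk hk) : x ≠ xk := by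
  intro hx
  apply hP
  rcases Point.X_eq_iff.1 hx with h1 | h1
  · rw [hPe, h1, ← hke]
    exact AddSubgroup.nsmul_mem _ (AddSubgroup.mem_zmultiples Q₀) k
  · rw [hPe, h1, ← hke]
    exact AddSubgroup.neg_mem _ (AddSubgroup.nsmul_mem _ (AddSubgroup.mem_zmultiples Q₀) k)

/-- **Vélu's `X` in rational-function form** (half system `S = {k • Q₀ | 1 ≤ k ≤ m}`): for `Q₀` of
odd order `2 m + 1` and `P ∉ ⟨Q₀⟩`,
`∑_{0<k<2m+1} (x(P + k•Q₀) - x(k•Q₀)) = ∑_{0<k≤m} (t_k/(x_P - x_k) + u_k/(x_P - x_k)²)`. -/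
theorem mzj_pr_velu_X (m : ℕ) (Q₀ : W.Point) (hQ : addOrderOf Q₀ = 2 * m + 1) (P : W.Point)
    (hP : P ∉ AddSubgroup.zmultiples Q₀) :
    ∑ k ∈ Finset.Ico 1 (2 * m + 1), (mzj_pr_X (P + k • Q₀) - mzj_pr_X (k • Q₀))
      = ∑ k ∈ Finset.Ico 1 (m + 1),
          (mzj_pr_t W (mzj_pr_X (k • Q₀)) / (mzj_pr_X P - mzj_pr_X (k • Q₀))
            + mzj_pr_u W (mzj_pr_X (k • Q₀)) / (mzj_pr_X P - mzj_pr_X (k • Q₀)) ^ 2) := by
  have h0 : (2 * m + 1) • Q₀ = 0 := by rw [← hQ]; exact addOrderOf_nsmul_eq_zero Q₀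
  rw [mzj_pr_half (fun R => mzj_pr_X (P + R) - mzj_pr_X R) Q₀ m h0]
  refine Finset.sum_congr rfl fun k hk => ?_
  rw [Finset.mem_Ico] at hk
  have hk0 : k • Q₀ ≠ 0 := by
    intro h
    have := addOrderOf_dvd_of_nsmul_eq_zero h
    rw [hQ] at this
    exact absurd (Nat.le_of_dvd (by omega) this) (by omega)
  have hP0 : P ≠ 0 := fun h => hP (h ▸ AddSubgroup.zero_mem _)
  rcases hPe : P with _ | ⟨x, y, h⟩
  · exact absurd hPe hP0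
  rcases hke : k • Q₀ with _ | ⟨xk, yk, hkk⟩
  · exact absurd hke hk0
  have hx : x ≠ xk := mzj_pr_X_ne hP hPe hke
  have := mzj_pr_pair h hkk hx
  simp only [mzj_pr_X_neg, mzj_pr_X_some, ← sub_eq_add_neg] at this ⊢
  linear_combination this


/-- half system for functions of the abscissa: `∑_{0<k<2m+1} g (x_k) = 2 ∑_{0<k≤m} g (x_k)` -/
theorem mzj_pr_half_X (g : F → F) (m : ℕ) (Q₀ : W.Point) (hQ : (2 * m + 1) • Q₀ = 0) :
    ∑ k ∈ Finset.Ico 1 (2 * m + 1), g (mzj_pr_X (k • Q₀))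
      = 2 * ∑ k ∈ Finset.Ico 1 (m + 1), g (mzj_pr_X (k • Q₀)) := by
  rw [mzj_pr_half (fun R => g (mzj_pr_X R)) Q₀ m hQ, Finset.mul_sum]
  refine Finset.sum_congr rfl fun k _ => ?_
  rw [mzj_pr_X_neg]
  ring

/-- short Weierstrass form: `∑_{N∖0} (3 x_Q² + a₄) = ∑_S t_Q` -/
theorem mzj_pr_v_short (h1 : W.a₁ = 0) (h2 : W.a₂ = 0) (h3 : W.a₃ = 0) (m : ℕ) (Q₀ : W.Point)
    (hQ : (2 * m + 1) • Q₀ = 0) :
    ∑ k ∈ Finset.Ico 1 (2 * m + 1), (3 * mzj_pr_X (k • Q₀) ^ 2 + W.a₄)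
      = ∑ k ∈ Finset.Ico 1 (m + 1), mzj_pr_t W (mzj_pr_X (k • Q₀)) := by
  rw [mzj_pr_half_X (fun x => 3 * x ^ 2 + W.a₄) m Q₀ hQ, Finset.mul_sum]
  refine Finset.sum_congr rfl fun k _ => ?_
  simp only [mzj_pr_t, WeierstrassCurve.b₂, WeierstrassCurve.b₄, h1, h2, h3]
  ring

/-- short Weierstrass form: `∑_{N∖0} (5 x_Q³ + 3 a₄ x_Q + 2 a₆) = ∑_S (u_Q + x_Q t_Q)` -/
theorem mzj_pr_w_short (h1 : W.a₁ = 0) (h2 : W.a₂ = 0) (h3 : W.a₃ = 0) (m : ℕ) (Q₀ : W.Point)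
    (hQ : (2 * m + 1) • Q₀ = 0) :
    ∑ k ∈ Finset.Ico 1 (2 * m + 1),
        (5 * mzj_pr_X (k • Q₀) ^ 3 + 3 * W.a₄ * mzj_pr_X (k • Q₀) + 2 * W.a₆)
      = ∑ k ∈ Finset.Ico 1 (m + 1),
          (mzj_pr_u W (mzj_pr_X (k • Q₀)) + mzj_pr_X (k • Q₀) * mzj_pr_t W (mzj_pr_X (k • Q₀))) := by
  rw [mzj_pr_half_X (fun x => 5 * x ^ 3 + 3 * W.a₄ * x + 2 * W.a₆) m Q₀ hQ, Finset.mul_sum]
  refine Finset.sum_congr rfl fun k _ => ?_
  simp only [mzj_pr_t, mzj_pr_u, WeierstrassCurve.b₂, WeierstrassCurve.b₄, WeierstrassCurve.b₆,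
    h1, h2, h3]
  ring

end Fermat.Agent.MZ
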