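/-
MAZUR project, node [MZ-J], cell [J-QUOT] (analytic route), file `MZ/J/An/PairSx.lean`
(helper2, prefix `mzj_pr_`).  Pure algebra over any field, general Weierstrass form.

THE SET `Sx` OF ABSCISSAE of the nonzero points of `⟨Q₀⟩` (`Q₀` of odd order `2m+1`), as in the seam
`mzj_Velu_stmt` (`MZ/J/SeamsQ.lean`):

* `mzj_pr_Sx m Q₀`       : `Finset F`, the image of `k ↦ x(k • Q₀)` on `1 ≤ k ≤ m` (injective there:
                           `mzj_pr_injOn`), `mzj_pr_card_Sx : card = m`;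
* `mzj_pr_mem_Sx`        : `ξ ∈ Sx ↔ ∃ y h, some ξ y h ∈ zmultiples Q₀`;
* `mzj_pr_velu_X_Sx`     : `∑_{0<k<2m+1} (x(P + k•Q₀) - x(k•Q₀)) = ∑_{ξ ∈ Sx} (t ξ/(x_P - ξ) + u ξ/(x_P - ξ)²)`;
* `mzj_pr_sum_eq_two_Sx` : `∑_{0<k<2m+1} g (x(k•Q₀)) = 2 ∑_{ξ ∈ Sx} g ξ`.
-/
import Fermat.Agent.MZ.J.An.Pair

set_option autoImplicit false

noncomputable section

namespace Fermat.Agent.MZ

open WeierstrassCurve WeierstrassCurve.Affine

variable {F : Type*} [Field F] [DecidableEq F] {W : WeierstrassCurve.Affine F}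

/-- two points with the same abscissa are equal or opposite (also at the origin) -/
theorem mzj_pr_eq_or_eq_neg {P R : W.Point} (hP : P ≠ 0) (hR : R ≠ 0)
    (h : mzj_pr_X P = mzj_pr_X R) : P = R ∨ P = -R := by
  rcases P with _ | ⟨x, y, hxy⟩
  · exact absurd rfl hP
  rcases R with _ | ⟨x', y', hxy'⟩
  · exact absurd rfl hR
  exact Point.X_eq_iff.1 h

/-- the multiples `k • Q₀`, `0 < k < order`, are nonzero -/
theorem mzj_pr_nsmul_ne_zero {Q₀ : W.Point} {n : ℕ} (hQ : addOrderOf Q₀ = n) {k : ℕ} (h0 : 0 < k)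
    (hk : k < n) : k • Q₀ ≠ 0 := by
  intro h
  have := addOrderOf_dvd_of_nsmul_eq_zero h
  rw [hQ] at this
  exact absurd (Nat.le_of_dvd h0 this) (by omega)

/-- the abscissae `x(k • Q₀)`, `1 ≤ k ≤ m`, are pairwise different (`Q₀` of order `2m+1`) -/
theorem mzj_pr_injOn (m : ℕ) (Q₀ : W.Point) (hQ : addOrderOf Q₀ = 2 * m + 1) :
    Set.InjOn (fun k : ℕ => mzj_pr_X (k • Q₀)) (Finset.Ico 1 (m + 1) : Finset ℕ) := by
  intro j hj k hk hjk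
  simp only [Finset.coe_Ico, Set.mem_Ico] at hj hk
  have hj0 := mzj_pr_nsmul_ne_zero hQ (k := j) (by omega) (by omega)
  have hk0 := mzj_pr_nsmul_ne_zero hQ (k := k) (by omega) (by omega)
  rcases mzj_pr_eq_or_eq_neg hj0 hk0 hjk with h | h
  · -- j • Q₀ = k • Q₀
    have h1 : ((j : ℤ) - k) • Q₀ = 0 := by
      rw [sub_zsmul, natCast_zsmul, natCast_zsmul, h]; abel
    have h2 := addOrderOf_dvd_iff_zsmul_eq_zero.2 h1
    rw [hQ] at h2
    have h3 : ((j : ℤ) - k) = 0 := by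
      apply Int.eq_zero_of_abs_lt_dvd h2
      rw [abs_lt]
      constructor <;> push_cast <;> omega
    omega
  · have h1 : ((j : ℤ) + k) • Q₀ = 0 := by
      rw [add_zsmul, natCast_zsmul, natCast_zsmul, h]; abel
    have h2 := addOrderOf_dvd_iff_zsmul_eq_zero.2 h1
    rw [hQ] at h2
    have h3 : ((j : ℤ) + k) = 0 := by
      apply Int.eq_zero_of_abs_lt_dvd h2
      rw [abs_lt]
      constructor <;> push_cast <;> omega
    omega

/-- the set of abscissae of the nonzero points of `⟨Q₀⟩` -/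
def mzj_pr_Sx (m : ℕ) (Q₀ : W.Point) : Finset F :=
  (Finset.Ico 1 (m + 1)).image fun k : ℕ => mzj_pr_X (k • Q₀)

theorem mzj_pr_sum_Sx {M : Type*} [AddCommMonoid M] (g : F → M) (m : ℕ) (Q₀ : W.Point)
    (hQ : addOrderOf Q₀ = 2 * m + 1) :
    ∑ ξ ∈ mzj_pr_Sx m Q₀, g ξ = ∑ k ∈ Finset.Ico 1 (m + 1), g (mzj_pr_X (k • Q₀)) :=
  Finset.sum_image (mzj_pr_injOn m Q₀ hQ)

theorem mzj_pr_card_Sx (m : ℕ) (Q₀ : W.Point) (hQ : addOrderOf Q₀ = 2 * m + 1) :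
    (mzj_pr_Sx m Q₀).card = m := by
  rw [mzj_pr_Sx, Finset.card_image_of_injOn (mzj_pr_injOn m Q₀ hQ)]
  simp

/-- characterisation of `Sx`: the abscissae of the affine points of `⟨Q₀⟩` -/
theorem mzj_pr_mem_Sx (m : ℕ) (Q₀ : W.Point) (hQ : addOrderOf Q₀ = 2 * m + 1) (ξ : F) :
    ξ ∈ mzj_pr_Sx m Q₀ ↔
      ∃ (y : F) (h : W.Nonsingular ξ y), Point.some ξ y h ∈ AddSubgroup.zmultiples Q₀ := by
  constructor
  · intro h
    obtain ⟨k, hk, rfl⟩ := Finset.mem_image.1 h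
    rw [Finset.mem_Ico] at hk
    have hk0 := mzj_pr_nsmul_ne_zero hQ (k := k) (by omega) (by omega)
    rcases hke : k • Q₀ with _ | ⟨x, y, hxy⟩
    · exact absurd hke hk0
    refine ⟨y, by simpa [hke] using hxy, ?_⟩
    have : Point.some x y hxy ∈ AddSubgroup.zmultiples Q₀ := by
      rw [← hke]; exact AddSubgroup.nsmul_mem _ (AddSubgroup.mem_zmultiples Q₀) k
    simpa [hke] using this
  · rintro ⟨y, h, hmem⟩
    obtain ⟨j, hj⟩ := AddSubgroup.mem_zmultiples_iff.1 hmem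
    have hpos : (0 : ℤ) < (2 * m + 1 : ℕ) := by positivity
    set r : ℤ := j % ((2 * m + 1 : ℕ) : ℤ) with hr
    have hr0 : 0 ≤ r := Int.emod_nonneg _ hpos.ne'
    have hr1 : r < ((2 * m + 1 : ℕ) : ℤ) := Int.emod_lt_of_pos _ hpos
    have hrj : r • Q₀ = j • Q₀ := by
      rw [hr, ← hQ]; exact mod_addOrderOf_zsmul Q₀ j
    obtain ⟨n, hn⟩ := Int.eq_ofNat_of_zero_le hr0
    have hnQ : n • Q₀ = Point.some ξ y h := by
      rw [← hj, ← hrj, hn, natCast_zsmul]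
    have hn0 : n ≠ 0 := by
      rintro rfl
      rw [zero_smul] at hnQ
      exact Point.some_ne_zero _ hnQ.symm
    have hn1 : n < 2 * m + 1 := by
      have : (n : ℤ) < ((2 * m + 1 : ℕ) : ℤ) := by rw [← hn]; exact hr1
      exact_mod_cast this
    by_cases hnm : n ≤ m
    · refine Finset.mem_image.2 ⟨n, Finset.mem_Ico.2 ⟨by omega, by omega⟩, ?_⟩
      simp only [hnQ, mzj_pr_X_some]
    · refine Finset.mem_image.2 ⟨2 * m + 1 - n, Finset.mem_Ico.2 ⟨by omega, by omega⟩, ?_⟩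
      have h0 : (2 * m + 1) • Q₀ = 0 := by rw [← hQ]; exact addOrderOf_nsmul_eq_zero Q₀
      have : (2 * m + 1 - n) • Q₀ + n • Q₀ = 0 := by
        rw [← add_smul, Nat.sub_add_cancel (by omega), h0]
      have h2 : (2 * m + 1 - n) • Q₀ = -(n • Q₀) := eq_neg_of_add_eq_zero_left this
      simp only [h2, mzj_pr_X_neg, hnQ, mzj_pr_X_some]

/-- **Vélu's `X` with the set `Sx` of abscissae** (the shape of `mzj_Velu_stmt`) -/
theorem mzj_pr_velu_X_Sx (m : ℕ) (Q₀ : W.Point) (hQ : addOrderOf Q₀ = 2 * m + 1) (P : W.Point)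
    (hP : P ∉ AddSubgroup.zmultiples Q₀) :
    ∑ k ∈ Finset.Ico 1 (2 * m + 1), (mzj_pr_X (P + k • Q₀) - mzj_pr_X (k • Q₀))
      = ∑ ξ ∈ mzj_pr_Sx m Q₀,
          (mzj_pr_t W ξ / (mzj_pr_X P - ξ) + mzj_pr_u W ξ / (mzj_pr_X P - ξ) ^ 2) := by
  rw [mzj_pr_velu_X m Q₀ hQ P hP,
    mzj_pr_sum_Sx (fun ξ => mzj_pr_t W ξ / (mzj_pr_X P - ξ) + mzj_pr_u W ξ / (mzj_pr_X P - ξ) ^ 2)
      m Q₀ hQ]

/-- `∑_{0<k<2m+1} g (x(k • Q₀)) = 2 ∑_{ξ ∈ Sx} g ξ` -/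
theorem mzj_pr_sum_eq_two_Sx (g : F → F) (m : ℕ) (Q₀ : W.Point) (hQ : addOrderOf Q₀ = 2 * m + 1) :
    ∑ k ∈ Finset.Ico 1 (2 * m + 1), g (mzj_pr_X (k • Q₀)) = 2 * ∑ ξ ∈ mzj_pr_Sx m Q₀, g ξ := by
  have h0 : (2 * m + 1) • Q₀ = 0 := by rw [← hQ]; exact addOrderOf_nsmul_eq_zero Q₀
  rw [mzj_pr_half_X g m Q₀ h0, mzj_pr_sum_Sx g m Q₀ hQ]

end Fermat.Agent.MZ
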