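/-
MAZUR project, node [MZ-J], cell [J-QUOT] by the ANALYTIC route, file `MZ/J/An/Short.lean`
(helper7, prefix `mzj_av_`).

VELU'S ISOGENY OVER `ℂ` IN COEFFICIENT FORM (no lattice in the statement).
For `W : Y² = X³ + A X + B` over `ℂ` with `4A³ + 27B² ≠ 0` and `Q ∈ W(ℂ)` of prime order `p`:

* `mzj_av_v W p Q = ∑_{k=1}^{p-1} (3 x(k•Q)² + A)`, `mzj_av_w W p Q = ∑ (5 x(k•Q)³ + 3 A x(k•Q) + 2B)`;
* `mzj_av_quot W p Q = ⟨0, 0, 0, A - 5 v, B - 7 w⟩`;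
* `mzj_av_short` : `4A'³ + 27B'² ≠ 0` and there is `φ : W(ℂ) →+ W'(ℂ)`, surjective, `ker φ = ⟨Q⟩`,
  `x(φ P) = x_P + ∑_k (x(P + k•Q) - x(k•Q))`, `y(φ P) = y_P + ∑_k y(P + k•Q)` for `P ∉ ⟨Q⟩`.
-/
import Mathlib
import Fermat.Agent.MZ.A.Lat.Exists
import Fermat.Agent.MZ.J.An.Isog

set_option autoImplicit false

noncomputable section

namespace Fermat.Agent.MZ

open Complex
open scoped PeriodPair

/-- the short Weierstrass curve `Y² = X³ + A X + B` -/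
def mzj_av_sw {F : Type*} [CommRing F] (A B : F) : WeierstrassCurve F := ⟨0, 0, 0, A, B⟩

/-- Velu's `v = ∑_{k=1}^{p-1} (3 x(k•Q)² + A)` -/
def mzj_av_v {F : Type*} [Field F] [DecidableEq F] (A B : F) (p : ℕ)
    (Q : (mzj_av_sw A B).toAffine.Point) : F :=
  ∑ k ∈ Finset.Ico 1 p, (3 * mzj_av_px (k • Q) ^ 2 + A)

/-- Velu's `w = ∑_{k=1}^{p-1} (5 x(k•Q)³ + 3 A x(k•Q) + 2 B)` -/
def mzj_av_w {F : Type*} [Field F] [DecidableEq F] (A B : F) (p : ℕ)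
    (Q : (mzj_av_sw A B).toAffine.Point) : F :=
  ∑ k ∈ Finset.Ico 1 p, (5 * mzj_av_px (k • Q) ^ 3 + 3 * A * mzj_av_px (k • Q) + 2 * B)

/-- transport of points along an equality of curves -/
theorem mzj_av_transport {F : Type*} [Field F] [DecidableEq F] {W₁ W₂ : WeierstrassCurve F}
    (h : W₁ = W₂) :
    ∃ e : W₁.toAffine.Point ≃+ W₂.toAffine.Point,
      ∀ P, mzj_av_px (e P) = mzj_av_px P ∧ mzj_av_py (e P) = mzj_av_py P := by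
  subst h
  exact ⟨AddEquiv.refl _, fun P => ⟨rfl, rfl⟩⟩

theorem mzj_av_uh_curve_eq (L : PeriodPair) :
    mza_uh_curve L = mzj_av_sw (-L.g₂ / 4) (-L.g₃ / 4) := rfl

/-- **Velu's isogeny over `ℂ`, coefficient form** -/
theorem mzj_av_short (A B : ℂ) (hΔ : 4 * A ^ 3 + 27 * B ^ 2 ≠ 0) {p : ℕ} (hp : p.Prime)
    (Q : (mzj_av_sw A B).toAffine.Point) (hQ : addOrderOf Q = p) :
    4 * (A - 5 * mzj_av_v A B p Q) ^ 3 + 27 * (B - 7 * mzj_av_w A B p Q) ^ 2 ≠ 0 ∧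
    ∃ φ : (mzj_av_sw A B).toAffine.Point →+
        (mzj_av_sw (A - 5 * mzj_av_v A B p Q) (B - 7 * mzj_av_w A B p Q)).toAffine.Point,
      Function.Surjective φ ∧ φ.ker = AddSubgroup.zmultiples Q ∧
      ∀ P : (mzj_av_sw A B).toAffine.Point, P ∉ AddSubgroup.zmultiples Q →
        mzj_av_px (φ P) = mzj_av_px P
          + ∑ k ∈ Finset.Ico 1 p, (mzj_av_px (P + k • Q) - mzj_av_px (k • Q)) ∧
        mzj_av_py (φ P) = mzj_av_py P + ∑ k ∈ Finset.Ico 1 p, mzj_av_py (P + k • Q) := by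
  obtain ⟨L, rfl, rfl⟩ := mza_la_exists_short A B hΔ
  obtain ⟨L', φ, h2, h3, hsurj, hker, hform⟩ := mzj_av_isog L hp Q hQ
  have e2 : -L'.g₂ / 4 = -L.g₂ / 4 - 5 * mzj_av_v (-L.g₂ / 4) (-L.g₃ / 4) p Q := h2
  have e3 : -L'.g₃ / 4 = -L.g₃ / 4 - 7 * mzj_av_w (-L.g₂ / 4) (-L.g₃ / 4) p Q := h3
  have hW : mza_uh_curve L' = mzj_av_sw (-L.g₂ / 4 - 5 * mzj_av_v (-L.g₂ / 4) (-L.g₃ / 4) p Q)
      (-L.g₃ / 4 - 7 * mzj_av_w (-L.g₂ / 4) (-L.g₃ / 4) p Q) := by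
    rw [mzj_av_uh_curve_eq, e2, e3]
  constructor
  · rw [← e2, ← e3]
    have := mza_uh_disc_ne_zero L'
    intro h0
    apply this
    linear_combination (-16 : ℂ) * h0
  · obtain ⟨e, he⟩ := mzj_av_transport hW
    refine ⟨e.toAddMonoidHom.comp φ, ?_, ?_, ?_⟩
    · exact e.surjective.comp hsurj
    · ext P
      exact ⟨fun h => (SetLike.ext_iff.1 hker P).1 (e.map_eq_zero_iff.1 h),
        fun h => e.map_eq_zero_iff.2 ((SetLike.ext_iff.1 hker P).2 h)⟩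
    · intro P hP
      obtain ⟨h1, h2'⟩ := hform P hP
      exact ⟨((he (φ P)).1).trans h1, ((he (φ P)).2).trans h2'⟩

end Fermat.Agent.MZ
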