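/-
MAZUR / [MZ-J] / [J-QUOT-AN] (helper13): VELU'S FORMULAS, ANALYTICALLY.  Prefix `mzj_vl_`.
(Renamed from `mzj_av_`: helper7's `An/Sum.lean` + `An/Coeff.lean` prove the same statements under
that prefix; this file is an independent cross-check and is not needed by any consumer.)

`L ⊆ L'` lattices (`PeriodPair`s) with `L' = L + ℤ z₁`, `p z₁ ∈ L`, `k z₁ ∉ L` for `0 < k < p`
(`mzj_vl_Data`).  Then, for `z ∉ L'`:

* `mzj_vl_P`   : `℘[L'] z = ℘[L] z + ∑_{k=1}^{p-1} (℘[L] (z + k z₁) - ℘[L] (k z₁))`;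
* `mzj_vl_P'`  : `℘'[L'] z = ∑_{k=0}^{p-1} ℘'[L] (z + k z₁)`;
* `mzj_vl_g₂`  : `g₂(L') = g₂(L) + 10 ∑_{k=1}^{p-1} (6 x_k² - g₂(L)/2)`,  `x_k = ℘[L] (k z₁)`;
* `mzj_vl_g₃`  : `g₃(L') = g₃(L) + 7 ∑_{k=1}^{p-1} (20 x_k³ - 3 g₂(L) x_k - 2 g₃(L))`.

With `g₂ = -4a`, `g₃ = -4b` these are Vélu's formulas `a' = a - 5 ∑ (3x² + a)`,
`b' = b - 7 ∑ (5x³ + 3ax + 2b)` for the quotient of `y² = x³ + ax + b` by the subgroup generated by
the point `(℘(z₁), ℘'(z₁)/2)` of order `p`.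

Proof: the difference of the two sides of the first formula is `L'`-periodic with removable
singularities, hence constant (`mza_th_liouville`), and the constant is `0` (value at `0` of the
regularisation).  The formulas for `g₂`, `g₃` compare Taylor coefficients at `0`.
-/
import Mathlib
import Fermat.Agent.MZ.A.Theta.Liouville
import Fermat.Agent.MZ.A.Unif.Basic

set_option autoImplicit false

open PeriodPair Filter Topology

noncomputable section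

namespace Fermat.Agent.MZ

/-- `L' = L + ℤ z₁` with `z₁` of exact order `p` modulo `L` -/
structure mzj_vl_Data (L L' : PeriodPair) (p : ℕ) (z₁ : ℂ) : Prop where
  pos : 0 < p
  notMem : ∀ k : ℕ, 0 < k → k < p → (k : ℂ) * z₁ ∉ L.lattice
  mem : (p : ℂ) * z₁ ∈ L.lattice
  lat : ∀ x : ℂ, x ∈ L'.lattice ↔ ∃ k : ℤ, x - (k : ℂ) * z₁ ∈ L.lattice

variable {L L' : PeriodPair} {p : ℕ} {z₁ : ℂ}

namespace mzj_vl_Data

theorem le (h : mzj_vl_Data L L' p z₁) {x : ℂ} (hx : x ∈ L.lattice) : x ∈ L'.lattice :=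
  (h.lat x).2 ⟨0, by simpa using hx⟩

theorem shift_notMem (h : mzj_vl_Data L L' p z₁) {z : ℂ} (hz : z ∉ L'.lattice) (k : ℕ) :
    z + (k : ℂ) * z₁ ∉ L.lattice := by
  intro hm
  apply hz
  refine (h.lat z).2 ⟨-(k : ℤ), ?_⟩
  have : z - ((-(k : ℤ) : ℤ) : ℂ) * z₁ = z + (k : ℂ) * z₁ := by push_cast; ring
  rw [this]
  exact hm

end mzj_vl_Data

/-- the trace `T z = ∑_{k < p} ℘[L] (z + k z₁)` -/
def mzj_vl_T (L : PeriodPair) (p : ℕ) (z₁ : ℂ) (z : ℂ) : ℂ :=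
  ∑ k ∈ Finset.range p, ℘[L] (z + (k : ℂ) * z₁)

/-- the constant `c₀ = ∑_{0 < k < p} ℘[L] (k z₁)` -/
def mzj_vl_c (L : PeriodPair) (p : ℕ) (z₁ : ℂ) : ℂ :=
  ∑ k ∈ Finset.Ico 1 p, ℘[L] ((k : ℂ) * z₁)

theorem mzj_vl_T_add_lattice (L : PeriodPair) (p : ℕ) (z₁ : ℂ) (z l : ℂ) (hl : l ∈ L.lattice) :
    mzj_vl_T L p z₁ (z + l) = mzj_vl_T L p z₁ z := by
  unfold mzj_vl_T
  refine Finset.sum_congr rfl fun k _ => ?_
  have : z + l + (k : ℂ) * z₁ = (z + (k : ℂ) * z₁) + ((⟨l, hl⟩ : L.lattice) : ℂ) := by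
    simp only; ring
  rw [this, L.weierstrassP_add_coe]

theorem mzj_vl_T_add_z₁ (h : mzj_vl_Data L L' p z₁) (z : ℂ) :
    mzj_vl_T L p z₁ (z + z₁) = mzj_vl_T L p z₁ z := by
  unfold mzj_vl_T
  have e : ∀ k : ℕ, ℘[L] (z + z₁ + (k : ℂ) * z₁) = ℘[L] (z + ((k + 1 : ℕ) : ℂ) * z₁) := by
    intro k
    congr 1
    push_cast
    ring
  rw [Finset.sum_congr rfl fun k _ => e k]
  have h1 := Finset.sum_range_succ (fun k : ℕ => ℘[L] (z + (k : ℂ) * z₁)) p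
  have h2 := Finset.sum_range_succ' (fun k : ℕ => ℘[L] (z + (k : ℂ) * z₁)) p
  have h3 : ℘[L] (z + (p : ℂ) * z₁) = ℘[L] (z + ((0 : ℕ) : ℂ) * z₁) := by
    have : z + (p : ℂ) * z₁ = z + ((⟨(p : ℂ) * z₁, h.mem⟩ : L.lattice) : ℂ) := rfl
    rw [this, L.weierstrassP_add_coe]
    simp
  rw [h1, h3] at h2
  exact (add_right_cancel h2).symm

theorem mzj_vl_T_add_zsmul (h : mzj_vl_Data L L' p z₁) (z : ℂ) (k : ℤ) :
    mzj_vl_T L p z₁ (z + (k : ℂ) * z₁) = mzj_vl_T L p z₁ z := by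
  induction k using Int.induction_on with
  | zero => simp
  | succ n ih =>
    have : z + ((n + 1 : ℤ) : ℂ) * z₁ = (z + ((n : ℤ) : ℂ) * z₁) + z₁ := by push_cast; ring
    rw [this, mzj_vl_T_add_z₁ h, ih]
  | pred n ih =>
    have : z + ((-(n : ℤ) : ℤ) : ℂ) * z₁ = (z + ((-(n : ℤ) - 1 : ℤ) : ℂ) * z₁) + z₁ := by
      push_cast; ring
    rw [this, mzj_vl_T_add_z₁ h] at ih
    exact ih

theorem mzj_vl_T_periodic (h : mzj_vl_Data L L' p z₁) (z l : ℂ) (hl : l ∈ L'.lattice) :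
    mzj_vl_T L p z₁ (z + l) = mzj_vl_T L p z₁ z := by
  obtain ⟨k, hk⟩ := (h.lat l).1 hl
  have : z + l = (z + (k : ℂ) * z₁) + (l - (k : ℂ) * z₁) := by ring
  rw [this, mzj_vl_T_add_lattice L p z₁ _ _ hk, mzj_vl_T_add_zsmul h]

/-! ### the difference function and its local models -/

/-- `E z = ℘[L'] z - T z + c₀` -/
def mzj_vl_E (L L' : PeriodPair) (p : ℕ) (z₁ : ℂ) (z : ℂ) : ℂ :=
  ℘[L'] z - mzj_vl_T L p z₁ z + mzj_vl_c L p z₁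

/-- the sum `S z = ∑_{0<k<p} (℘[L] (z + k z₁) - ℘[L] (k z₁))` -/
def mzj_vl_S (L : PeriodPair) (p : ℕ) (z₁ : ℂ) (z : ℂ) : ℂ :=
  ∑ k ∈ Finset.Ico 1 p, (℘[L] (z + (k : ℂ) * z₁) - ℘[L] ((k : ℂ) * z₁))

/-- the local model of `E` at `0` -/
def mzj_vl_G0 (L L' : PeriodPair) (p : ℕ) (z₁ : ℂ) (z : ℂ) : ℂ :=
  ℘[L' - (0 : ℂ)] z - ℘[L - (0 : ℂ)] z - mzj_vl_S L p z₁ z

theorem mzj_vl_analyticAt_shift (L : PeriodPair) {z0 c : ℂ} (h : z0 + c ∉ L.lattice) :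
    AnalyticAt ℂ (fun z => ℘[L] (z + c)) z0 :=
  AnalyticAt.comp' (f := fun z : ℂ => z + c) (L.analyticOnNhd_weierstrassP (z0 + c) h)
    (analyticAt_id.add analyticAt_const)

theorem mzj_vl_T_eq (L : PeriodPair) {p : ℕ} (hp : 0 < p) (z₁ z : ℂ) :
    mzj_vl_T L p z₁ z = ℘[L] z + ∑ k ∈ Finset.Ico 1 p, ℘[L] (z + (k : ℂ) * z₁) := by
  unfold mzj_vl_T
  rw [Finset.range_eq_Ico, Finset.sum_eq_sum_Ico_succ_bot hp]
  simp

theorem mzj_vl_exceptZero (L : PeriodPair) (z : ℂ) :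
    ℘[L - (0 : ℂ)] z = ℘[L] z - 1 / z ^ 2 := by
  have := L.weierstrassPExcept_def (0 : L.lattice) z
  simp only [ZeroMemClass.coe_zero, sub_zero] at this
  rw [this]
  simp
  ring

theorem mzj_vl_E_eq_G0 (L L' : PeriodPair) {p : ℕ} (hp : 0 < p) (z₁ z : ℂ) :
    mzj_vl_E L L' p z₁ z = mzj_vl_G0 L L' p z₁ z := by
  unfold mzj_vl_E mzj_vl_G0 mzj_vl_S mzj_vl_c
  rw [mzj_vl_T_eq L hp, mzj_vl_exceptZero, mzj_vl_exceptZero, Finset.sum_sub_distrib]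
  ring

theorem mzj_vl_S_zero (L : PeriodPair) (p : ℕ) (z₁ : ℂ) : mzj_vl_S L p z₁ 0 = 0 := by
  unfold mzj_vl_S
  simp

theorem mzj_vl_G0_zero (L L' : PeriodPair) (p : ℕ) (z₁ : ℂ) : mzj_vl_G0 L L' p z₁ 0 = 0 := by
  unfold mzj_vl_G0
  rw [mzj_vl_S_zero]
  simp

theorem mzj_vl_analyticAt_S (h : mzj_vl_Data L L' p z₁) : AnalyticAt ℂ (mzj_vl_S L p z₁) 0 := by
  unfold mzj_vl_S
  refine Finset.analyticAt_fun_sum _ fun k hk => ?_
  rw [Finset.mem_Ico] at hk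
  refine AnalyticAt.sub ?_ analyticAt_const
  apply mzj_vl_analyticAt_shift
  rw [zero_add]
  exact h.notMem k (by omega) hk.2

theorem mzj_vl_analyticAt_G0 (h : mzj_vl_Data L L' p z₁) :
    AnalyticAt ℂ (mzj_vl_G0 L L' p z₁) 0 := by
  unfold mzj_vl_G0
  exact ((L'.analyticAt_weierstrassPExcept 0).sub (L.analyticAt_weierstrassPExcept 0)).sub
    (mzj_vl_analyticAt_S h)

theorem mzj_vl_analyticAt_E (h : mzj_vl_Data L L' p z₁) {z0 : ℂ} (hz0 : z0 ∉ L'.lattice) :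
    AnalyticAt ℂ (mzj_vl_E L L' p z₁) z0 := by
  unfold mzj_vl_E mzj_vl_T
  refine AnalyticAt.add (AnalyticAt.sub (L'.analyticOnNhd_weierstrassP z0 hz0) ?_) analyticAt_const
  refine Finset.analyticAt_fun_sum _ fun k _ => ?_
  exact mzj_vl_analyticAt_shift L (h.shift_notMem hz0 k)

theorem mzj_vl_E_periodic (h : mzj_vl_Data L L' p z₁) (z l : ℂ) (hl : l ∈ L'.lattice) :
    mzj_vl_E L L' p z₁ (z + l) = mzj_vl_E L L' p z₁ z := by
  unfold mzj_vl_E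
  rw [mzj_vl_T_periodic h z l hl]
  have : z + l = z + ((⟨l, hl⟩ : L'.lattice) : ℂ) := rfl
  rw [this, L'.weierstrassP_add_coe]


/-! ### Liouville -/

theorem mzj_vl_E_eq_zero (h : mzj_vl_Data L L' p z₁) {z : ℂ} (hz : z ∉ L'.lattice) :
    mzj_vl_E L L' p z₁ z = 0 := by
  have hloc : ∀ z0 : ℂ, ∃ G : ℂ → ℂ, AnalyticAt ℂ G z0 ∧
      ∀ᶠ w in 𝓝[≠] z0, mzj_vl_E L L' p z₁ w = G w := by
    intro z0
    by_cases hz0 : z0 ∈ L'.lattice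
    · refine ⟨fun w => mzj_vl_G0 L L' p z₁ (w - z0), ?_, Eventually.of_forall fun w => ?_⟩
      · have hG := mzj_vl_analyticAt_G0 h
        rw [← sub_self z0] at hG
        exact AnalyticAt.comp' (f := fun w : ℂ => w - z0) hG (analyticAt_id.sub analyticAt_const)
      · show mzj_vl_E L L' p z₁ w = mzj_vl_G0 L L' p z₁ (w - z0)
        rw [← mzj_vl_E_eq_G0 L L' h.pos, ← mzj_vl_E_periodic h (w - z0) z0 hz0, sub_add_cancel]
    · exact ⟨mzj_vl_E L L' p z₁, mzj_vl_analyticAt_E h hz0, Eventually.of_forall fun _ => rfl⟩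
  obtain ⟨c, hc⟩ := mza_th_liouville L' (mzj_vl_E L L' p z₁) (mzj_vl_E_periodic h) hloc
  have hc0 : c = 0 := by
    have h1 : Tendsto (mzj_vl_E L L' p z₁) (𝓝[≠] 0) (𝓝 (mzj_vl_G0 L L' p z₁ 0)) :=
      mza_th_tendsto_of_eventuallyEq (mzj_vl_analyticAt_G0 h).continuousAt
        (Eventually.of_forall fun w => mzj_vl_E_eq_G0 L L' h.pos z₁ w)
    have h2 : Tendsto (mzj_vl_E L L' p z₁) (𝓝[≠] 0) (𝓝 c) :=
      tendsto_const_nhds.congr' ((hc 0).mono fun w hw => hw.symm)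
    rw [← tendsto_nhds_unique h1 h2, mzj_vl_G0_zero]
  have h1 : Tendsto (mzj_vl_E L L' p z₁) (𝓝[≠] z) (𝓝 (mzj_vl_E L L' p z₁ z)) :=
    (mzj_vl_analyticAt_E h hz).continuousAt.tendsto.mono_left nhdsWithin_le_nhds
  have h2 : Tendsto (mzj_vl_E L L' p z₁) (𝓝[≠] z) (𝓝 c) :=
    tendsto_const_nhds.congr' ((hc z).mono fun w hw => hw.symm)
  rw [tendsto_nhds_unique h1 h2, hc0]

/-- **Vélu's formula for `℘`** (trace form) -/
theorem mzj_vl_P_trace (h : mzj_vl_Data L L' p z₁) {z : ℂ} (hz : z ∉ L'.lattice) :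
    ℘[L'] z = mzj_vl_T L p z₁ z - mzj_vl_c L p z₁ := by
  have := mzj_vl_E_eq_zero h hz
  unfold mzj_vl_E at this
  linear_combination this

/-- **Vélu's formula for `℘`**: `℘[L'] z = ℘[L] z + ∑_{0<k<p} (℘[L] (z + k z₁) - ℘[L] (k z₁))` -/
theorem mzj_vl_P (h : mzj_vl_Data L L' p z₁) {z : ℂ} (hz : z ∉ L'.lattice) :
    ℘[L'] z = ℘[L] z + ∑ k ∈ Finset.Ico 1 p, (℘[L] (z + (k : ℂ) * z₁) - ℘[L] ((k : ℂ) * z₁)) := by
  rw [mzj_vl_P_trace h hz, mzj_vl_T_eq L h.pos, Finset.sum_sub_distrib]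
  unfold mzj_vl_c
  ring


/-! ### the derivative -/

theorem mzj_vl_hasDerivAt_shift (L : PeriodPair) {z c : ℂ} (h : z + c ∉ L.lattice) :
    HasDerivAt (fun w => ℘[L] (w + c)) (℘'[L] (z + c)) z :=
  (mza_u_hasDerivAt_P L h).comp_add_const z c

theorem mzj_vl_hasDerivAt_T (h : mzj_vl_Data L L' p z₁) {z : ℂ} (hz : z ∉ L'.lattice) :
    HasDerivAt (mzj_vl_T L p z₁) (∑ k ∈ Finset.range p, ℘'[L] (z + (k : ℂ) * z₁)) z := by
  unfold mzj_vl_T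
  exact HasDerivAt.fun_sum fun k _ => mzj_vl_hasDerivAt_shift L (h.shift_notMem hz k)

/-- **Vélu's formula for `℘'`**: `℘'[L'] z = ∑_{k<p} ℘'[L] (z + k z₁)` -/
theorem mzj_vl_P' (h : mzj_vl_Data L L' p z₁) {z : ℂ} (hz : z ∉ L'.lattice) :
    ℘'[L'] z = ∑ k ∈ Finset.range p, ℘'[L] (z + (k : ℂ) * z₁) := by
  have hE : HasDerivAt (mzj_vl_E L L' p z₁)
      (℘'[L'] z - ∑ k ∈ Finset.range p, ℘'[L] (z + (k : ℂ) * z₁)) z := by
    unfold mzj_vl_E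
    exact ((mza_u_hasDerivAt_P L' hz).sub (mzj_vl_hasDerivAt_T h hz)).add_const _
  have h0 : mzj_vl_E L L' p z₁ =ᶠ[𝓝 z] fun _ => (0 : ℂ) := by
    filter_upwards [L'.isClosed_lattice.isOpen_compl.mem_nhds hz] with w hw
    exact mzj_vl_E_eq_zero h hw
  have h1 : HasDerivAt (mzj_vl_E L L' p z₁) 0 z :=
    (hasDerivAt_const z (0 : ℂ)).congr_of_eventuallyEq h0
  exact sub_eq_zero.mp (hE.unique h1)


/-! ### Taylor coefficients at `0` -/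

theorem mzj_vl_G0_eventuallyEq (h : mzj_vl_Data L L' p z₁) :
    mzj_vl_G0 L L' p z₁ =ᶠ[𝓝 0] fun _ => (0 : ℂ) := by
  filter_upwards [L'.compl_lattice_sdiff_singleton_mem_nhds 0] with w hw
  by_cases hw0 : w = 0
  · rw [hw0, mzj_vl_G0_zero]
  · have hwL : w ∉ L'.lattice := fun hm => hw ⟨hm, hw0⟩
    rw [← mzj_vl_E_eq_G0 L L' h.pos, mzj_vl_E_eq_zero h hwL]

theorem mzj_vl_iteratedDeriv_S (h : mzj_vl_Data L L' p z₁) {n : ℕ} (hn : 0 < n) :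
    iteratedDeriv n (mzj_vl_S L p z₁) 0
      = ∑ k ∈ Finset.Ico 1 p, iteratedDeriv n ℘[L] ((k : ℂ) * z₁) := by
  unfold mzj_vl_S
  have hcd : ∀ k ∈ Finset.Ico 1 p,
      ContDiffAt ℂ n (fun z => ℘[L] (z + (k : ℂ) * z₁) - ℘[L] ((k : ℂ) * z₁)) 0 := by
    intro k hk
    rw [Finset.mem_Ico] at hk
    refine (AnalyticAt.sub ?_ analyticAt_const).contDiffAt
    apply mzj_vl_analyticAt_shift
    rw [zero_add]
    exact h.notMem k (by omega) hk.2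
  rw [iteratedDeriv_fun_sum hcd]
  refine Finset.sum_congr rfl fun k hk => ?_
  rw [Finset.mem_Ico] at hk
  have hk' : (0 : ℂ) + (k : ℂ) * z₁ ∉ L.lattice := by
    rw [zero_add]
    exact h.notMem k (by omega) hk.2
  rw [iteratedDeriv_fun_sub (mzj_vl_analyticAt_shift L hk').contDiffAt contDiffAt_const,
    iteratedDeriv_const, if_neg hn.ne', sub_zero, iteratedDeriv_comp_add_const]
  simp only [zero_add]

/-- comparison of the Taylor coefficients of `℘[L' - 0]` and `℘[L - 0]` at `0` -/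
theorem mzj_vl_taylor (h : mzj_vl_Data L L' p z₁) {n : ℕ} (hn : 0 < n) :
    ((n + 1).factorial : ℂ) * L'.G (n + 2)
      = ((n + 1).factorial : ℂ) * L.G (n + 2)
        + ∑ k ∈ Finset.Ico 1 p, iteratedDeriv n ℘[L] ((k : ℂ) * z₁) := by
  have h0 : iteratedDeriv n (mzj_vl_G0 L L' p z₁) 0 = 0 := by
    have := ((mzj_vl_G0_eventuallyEq h).iteratedDeriv n).self_of_nhds
    rw [this, iteratedDeriv_const]
    simp
  have h1 : iteratedDeriv n (mzj_vl_G0 L L' p z₁) 0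
      = iteratedDeriv n ℘[L' - (0 : ℂ)] 0 - iteratedDeriv n ℘[L - (0 : ℂ)] 0
        - iteratedDeriv n (mzj_vl_S L p z₁) 0 := by
    unfold mzj_vl_G0
    have hf1 : ContDiffAt ℂ n ℘[L' - (0 : ℂ)] 0 := (L'.analyticAt_weierstrassPExcept 0).contDiffAt
    have hf2 : ContDiffAt ℂ n ℘[L - (0 : ℂ)] 0 := (L.analyticAt_weierstrassPExcept 0).contDiffAt
    have hf3 : ContDiffAt ℂ n (fun z => ℘[L' - (0 : ℂ)] z - ℘[L - (0 : ℂ)] z) 0 := hf1.sub hf2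
    have hf4 : ContDiffAt ℂ n (mzj_vl_S L p z₁) 0 := (mzj_vl_analyticAt_S h).contDiffAt
    rw [iteratedDeriv_fun_sub (f := fun z => ℘[L' - (0 : ℂ)] z - ℘[L - (0 : ℂ)] z)
      (g := mzj_vl_S L p z₁) hf3 hf4,
      iteratedDeriv_fun_sub (f := ℘[L' - (0 : ℂ)]) (g := ℘[L - (0 : ℂ)]) hf1 hf2]
  rw [h0, L'.iteratedDeriv_weierstrassPExcept_self, L.iteratedDeriv_weierstrassPExcept_self,
    if_neg hn.ne', if_neg hn.ne', mzj_vl_iteratedDeriv_S h hn, PeriodPair.sumInvPow_zero,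
    PeriodPair.sumInvPow_zero] at h1
  linear_combination -h1


/-! ### the invariants `g₂`, `g₃` of the larger lattice -/

/-- the fourth derivative: `120 ℘³ - 18 g₂ ℘ - 12 g₃` off the lattice -/
theorem mzj_vl_iteratedDeriv_four (L : PeriodPair) {u : ℂ} (hu : u ∉ L.lattice) :
    iteratedDeriv 4 ℘[L] u = 120 * ℘[L] u ^ 3 - 18 * L.g₂ * ℘[L] u - 12 * L.g₃ := by
  rw [iteratedDeriv_succ, mza_u_iteratedDeriv_P_three]
  have heq : mza_u_P3 L =ᶠ[𝓝 u] fun y => 12 * ℘[L] y * ℘'[L] y := by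
    filter_upwards [(mza_u_isOpen_compl_lattice L).mem_nhds hu] with y hy
    exact mza_u_P3_eq L hy
  have hd : HasDerivAt (fun y => 12 * ℘[L] y * ℘'[L] y)
      (12 * ℘'[L] u * ℘'[L] u + 12 * ℘[L] u * mza_u_P2 L u) u :=
    ((mza_u_hasDerivAt_P L hu).const_mul 12).mul (mza_u_hasDerivAt_P1 L hu)
  rw [(hd.congr_of_eventuallyEq heq).deriv, mza_u_P2_eq L hu]
  have hsq := L.derivWeierstrassP_sq u hu
  linear_combination 12 * hsq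

/-- **Vélu's formula for `g₂`** -/
theorem mzj_vl_g₂ (h : mzj_vl_Data L L' p z₁) :
    L'.g₂ = L.g₂ + 10 * ∑ k ∈ Finset.Ico 1 p, (6 * ℘[L] ((k : ℂ) * z₁) ^ 2 - L.g₂ / 2) := by
  have ht := mzj_vl_taylor h (n := 2) (by norm_num)
  have hs : ∑ k ∈ Finset.Ico 1 p, iteratedDeriv 2 ℘[L] ((k : ℂ) * z₁)
      = ∑ k ∈ Finset.Ico 1 p, (6 * ℘[L] ((k : ℂ) * z₁) ^ 2 - L.g₂ / 2) := by
    refine Finset.sum_congr rfl fun k hk => ?_
    rw [Finset.mem_Ico] at hk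
    rw [mza_u_iteratedDeriv_P_two, mza_u_P2_eq L (h.notMem k (by omega) hk.2)]
  rw [hs] at ht
  have hf : (((2 + 1 : ℕ).factorial : ℕ) : ℂ) = 6 := by norm_num [Nat.factorial]
  rw [hf] at ht
  have ht' : 6 * L'.G 4 = 6 * L.G 4
      + ∑ k ∈ Finset.Ico 1 p, (6 * ℘[L] ((k : ℂ) * z₁) ^ 2 - L.g₂ / 2) := ht
  have e1 : L'.g₂ = 60 * L'.G 4 := rfl
  have e2 : L.g₂ = 60 * L.G 4 := rfl
  linear_combination 10 * ht' + e1 - e2

/-- **Vélu's formula for `g₃`** -/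
theorem mzj_vl_g₃ (h : mzj_vl_Data L L' p z₁) :
    L'.g₃ = L.g₃ + 7 * ∑ k ∈ Finset.Ico 1 p,
      (20 * ℘[L] ((k : ℂ) * z₁) ^ 3 - 3 * L.g₂ * ℘[L] ((k : ℂ) * z₁) - 2 * L.g₃) := by
  have ht := mzj_vl_taylor h (n := 4) (by norm_num)
  have hs : ∑ k ∈ Finset.Ico 1 p, iteratedDeriv 4 ℘[L] ((k : ℂ) * z₁)
      = 6 * ∑ k ∈ Finset.Ico 1 p,
        (20 * ℘[L] ((k : ℂ) * z₁) ^ 3 - 3 * L.g₂ * ℘[L] ((k : ℂ) * z₁) - 2 * L.g₃) := by
    rw [Finset.mul_sum]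
    refine Finset.sum_congr rfl fun k hk => ?_
    rw [Finset.mem_Ico] at hk
    rw [mzj_vl_iteratedDeriv_four L (h.notMem k (by omega) hk.2)]
    ring
  rw [hs] at ht
  have hf : (((4 + 1 : ℕ).factorial : ℕ) : ℂ) = 120 := by norm_num [Nat.factorial]
  rw [hf] at ht
  have ht' : 120 * L'.G 6 = 120 * L.G 6 + 6 * ∑ k ∈ Finset.Ico 1 p,
      (20 * ℘[L] ((k : ℂ) * z₁) ^ 3 - 3 * L.g₂ * ℘[L] ((k : ℂ) * z₁) - 2 * L.g₃) := ht
  have e1 : L'.g₃ = 140 * L'.G 6 := rfl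
  have e2 : L.g₃ = 140 * L.G 6 := rfl
  linear_combination (7 / 6 : ℂ) * ht' + e1 - e2


end Fermat.Agent.MZ

end
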